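import Mathlib

/-!
# W7 (S42 / S29), package (B1) [TOP], linear algebra (helper23)

`h23_det_reduction`: a *determinantal* specialisation principle.  Let `R` be a commutative ring
with an injective ring homomorphism `i : R → L` into a field and a ring homomorphism
`π : R → κ` into a field.  If a family of vectors `w ∈ R ^ ι` has a common nonzero orthogonal
vector over `L`, then the reduced family has a common nonzero orthogonal vector over `κ`.
(No valuation theory: all `ι × ι` minors vanish in `L`, hence in `R`, hence in `κ`.)
-/

set_option autoImplicit false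
set_option linter.style.haveILetI false

namespace Fermat.Agent.S42x.Top.H23

open Matrix

/-- A spanning set of `ι → K` contains an `ι`-indexed family with nonzero determinant. -/
theorem h23_exists_det_ne_zero {K : Type*} [Field K] {ι : Type*} [Fintype ι] [DecidableEq ι]
    (S : Set (ι → K)) (hspan : Submodule.span K S = ⊤) :
    ∃ d : ι → (ι → K), (∀ k, d k ∈ S) ∧ (Matrix.of d).det ≠ 0 := by
  classical
  obtain ⟨b, hbS, hbspan, hbli⟩ := exists_linearIndependent K S
  have hb_top : ⊤ ≤ Submodule.span K (Set.range ((↑) : b → ι → K)) := by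
    rw [Subtype.range_coe, hbspan, hspan]
  let B : Module.Basis b K (ι → K) := Module.Basis.mk hbli hb_top
  letI : Fintype b := FiniteDimensional.fintypeBasisIndex B
  have hcard : Fintype.card b = Fintype.card ι := by
    rw [← Module.finrank_eq_card_basis B, Module.finrank_fintype_fun_eq_card]
  let e : ι ≃ b := (Fintype.equivOfCardEq hcard).symm
  refine ⟨fun k => (e k : ι → K), fun k => hbS (e k).2, ?_⟩
  have hli : LinearIndependent K (fun k => (e k : ι → K)) := hbli.comp e e.injective
  have hunit : IsUnit (Matrix.of fun k => (e k : ι → K)) :=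
    Matrix.linearIndependent_rows_iff_isUnit.mp hli
  exact ((Matrix.isUnit_iff_isUnit_det _).mp hunit).ne_zero

/-- **Determinantal specialisation.** -/
theorem h23_det_reduction {R L κ : Type*} [CommRing R] [Field L] [Field κ]
    (i : R →+* L) (hi : Function.Injective i) (π : R →+* κ)
    {ι : Type*} [Fintype ι] [DecidableEq ι] (S : Set (ι → R))
    (c : ι → L) (hc : c ≠ 0) (hS : ∀ w ∈ S, ∑ j, c j * i (w j) = 0) :
    ∃ c' : ι → κ, c' ≠ 0 ∧ ∀ w ∈ S, ∑ j, c' j * π (w j) = 0 := by
  classical
  by_contra hcon
  have hspan : Submodule.span κ ((fun w : ι → R => fun j => π (w j)) '' S) = ⊤ := by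
    by_contra hne
    obtain ⟨f, hf0, hle⟩ := Submodule.exists_le_ker_of_lt_top _ (lt_top_iff_ne_top.mpr hne)
    apply hcon
    refine ⟨fun j => f (fun j' => if j = j' then 1 else 0), ?_, ?_⟩
    · intro h0
      apply hf0
      refine LinearMap.ext fun x => ?_
      rw [LinearMap.pi_apply_eq_sum_univ f x]
      simp only [LinearMap.zero_apply]
      refine Finset.sum_eq_zero fun j _ => ?_
      have := congrFun h0 j
      simp only [Pi.zero_apply] at this
      rw [this, smul_zero]
    · intro w hw
      have h1 := hle (Submodule.subset_span ⟨w, hw, rfl⟩)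
      rw [LinearMap.mem_ker, LinearMap.pi_apply_eq_sum_univ] at h1
      refine Eq.trans (Finset.sum_congr rfl fun j _ => ?_) h1
      simp only [smul_eq_mul]
      rw [mul_comm]
  obtain ⟨d, hdS, hdet⟩ := h23_exists_det_ne_zero _ hspan
  choose w hwS hwd using hdS
  let M : Matrix ι ι R := Matrix.of w
  have h1 : (π.mapMatrix M).det ≠ 0 := by
    have : π.mapMatrix M = Matrix.of d := by
      ext k j
      simp only [RingHom.mapMatrix_apply, Matrix.map_apply, Matrix.of_apply, M]
      exact congrFun (hwd k) j
    rw [this]
    exact hdet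
  have h2 : M.det ≠ 0 := by
    intro h0
    apply h1
    rw [← RingHom.map_det, h0, map_zero]
  have h3 : (i.mapMatrix M).det ≠ 0 := by
    rw [← RingHom.map_det]
    intro h
    exact h2 (hi (by rw [h, map_zero]))
  apply h3
  rw [← Matrix.exists_mulVec_eq_zero_iff]
  refine ⟨c, hc, ?_⟩
  ext k
  simp only [Matrix.mulVec, dotProduct, RingHom.mapMatrix_apply, Matrix.map_apply,
    Matrix.of_apply, Pi.zero_apply, M]
  rw [← hS (w k) (hwS k)]
  refine Finset.sum_congr rfl fun j _ => ?_
  rw [mul_comm]

/-- Extension of scalars for linear independence of finitely many functions, in relational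
form: if the only `K`-relation between the rows `w ∈ S` is trivial, so is the only
`L`-relation (`K ⊆ L` fields). -/
theorem h23_indep_extend {K L : Type*} [Field K] [Field L] (i : K →+* L)
    {ι : Type*} [Fintype ι] [DecidableEq ι] (S : Set (ι → K))
    (hK : ∀ c : ι → K, (∀ w ∈ S, ∑ j, c j * w j = 0) → c = 0)
    (c : ι → L) (hc : ∀ w ∈ S, ∑ j, c j * i (w j) = 0) : c = 0 := by
  by_contra hne
  obtain ⟨c', hc', h⟩ := h23_det_reduction i i.injective (RingHom.id K) S c hne hc
  exact hc' (hK c' fun w hw => by simpa using h w hw)

end Fermat.Agent.S42x.Top.H23
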