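import Fermat.Agent.S42x.Top.H23_Top

/-!
# W7 (S42 / S29), package (B1) [TOP], matrix form (helper23)

* `h23_hecke_lattice`: the coset formula for `T_ℓ` (`ℓ ∤ N`) maps an integral parabolic class
  `ψ : Γ₀(N) → ℤ` to an integral parabolic class `ψ'`: `∑_x ψ(γ'_x) = ψ'(γ)` for **every**
  coset datum of every `γ` (so the sum does not depend on the coset datum).
* `h23_top_eigen`: **(B1) in matrix form** (the statement `top_eigen` of the W7 owner map):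
  a finite family `b : Fin n → (Γ₀(N) → ℤ)` of integral parabolic classes, independent modulo
  `p`, integer matrices `t ℓ` with `T_ℓ b_j = ∑_k t_ℓ(k, j) b_k` (coset form), algebraic integers
  `a ℓ` with `a ℓ = a_ℓ(g)`, and `w ≠ 0` in `κ ^ n` with `t_ℓ w = ā_ℓ w` for all primes `ℓ ∤ N`.
-/

set_option autoImplicit false
set_option linter.style.haveILetI false

namespace Fermat.Agent.S42x.Top.H23

open UpperHalfPlane ModularFormClass CongruenceSubgroup ModularCurve ModularCurve.Period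
open Fermat.Agent.S22 Fermat.Agent.S16x.Low.H5 Fermat.Agent.S16x.Low.H23
open scoped MatrixGroups

/-- A complex-valued homomorphism with integral values is the cast of an integral one. -/
theorem h23_exists_intHom {Γ : Type*} [Group Γ] (φ : Additive Γ →+ ℂ)
    (h : ∀ γ, ∃ n : ℤ, φ γ = n) : ∃ ψ : Additive Γ →+ ℤ, castHomL ℂ ψ = φ := by
  choose n hn using h
  refine ⟨AddMonoidHom.mk' n fun a b => ?_, AddMonoidHom.ext fun γ => ?_⟩
  · have : ((n (a + b) : ℤ) : ℂ) = ((n a + n b : ℤ) : ℂ) := by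
      rw [← hn, map_add, hn a, hn b, Int.cast_add]
    exact_mod_cast this
  · rw [castHomL_apply]
    exact (hn γ).symm

/-- **`T_ℓ` preserves the lattice of integral parabolic classes** (coset form). -/
theorem h23_hecke_lattice {N : ℕ} [NeZero N] {ℓ : ℕ} [Fact ℓ.Prime] (hℓN : ¬ ℓ ∣ N)
    (ψ : Additive (Gamma0 N) →+ ℤ) (hψ : ψ ∈ parabolicHoms ℤ (Gamma0 N) ℤ) :
    ∃ ψ' : Additive (Gamma0 N) →+ ℤ, ψ' ∈ parabolicHoms ℤ (Gamma0 N) ℤ ∧
      ∀ (γ : Gamma0 N) (σ : Equiv.Perm (OnePoint (ZMod ℓ))) (γ' : OnePoint (ZMod ℓ) → SL(2, ℤ))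
        (h : CosetData (tA ℓ) (tB ℓ) (tD ℓ) N (γ : SL(2, ℤ)) σ γ'),
        ∑ x, ψ (Additive.ofMul (⟨γ' x, h.1 x⟩ : Gamma0 N)) = ψ' (Additive.ofMul γ) := by
  obtain ⟨-, hrange⟩ := Fermat.Agent.S21.result N
  have hψC : castHomL ℂ ψ ∈ parabolicHoms ℂ (Gamma0 N) ℂ := by
    intro γ hγ
    rw [castHomL_apply, hψ γ hγ, Int.cast_zero]
  rw [← hrange] at hψC
  obtain ⟨⟨f, f'⟩, hff'⟩ := hψC
  set φ' : Additive (Gamma0 N) →+ ℂ := periodHomPair N
    (CuspForm.heckeTLin 2 (Fact.out : ℓ.Prime) hℓN f,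
      CuspForm.heckeTLin 2 (Fact.out : ℓ.Prime) hℓN f') with hφ'
  have hφ'par : φ' ∈ parabolicHoms ℂ (Gamma0 N) ℂ := by
    rw [← hrange]
    exact LinearMap.mem_range_self _ _
  have hform : ∀ (γ : Gamma0 N) (σ : Equiv.Perm (OnePoint (ZMod ℓ)))
      (γ' : OnePoint (ZMod ℓ) → SL(2, ℤ))
      (h : CosetData (tA ℓ) (tB ℓ) (tD ℓ) N (γ : SL(2, ℤ)) σ γ'),
      φ' (Additive.ofMul γ)
        = ((∑ x, ψ (Additive.ofMul (⟨γ' x, h.1 x⟩ : Gamma0 N)) : ℤ) : ℂ) := by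
    intro γ σ γ' h
    rw [hφ', periodHomPair_heckeT hℓN f f' γ σ γ' h, hff', Int.cast_sum]
    rfl
  obtain ⟨ψ', hψ'⟩ := h23_exists_intHom φ' (by
    intro γ
    obtain ⟨σ, γ', h⟩ := exists_cosetData_T hℓN (Additive.toMul γ)
    exact ⟨_, hform (Additive.toMul γ) σ γ' h⟩)
  refine ⟨ψ', ?_, ?_⟩
  · intro γ hγ
    have h1 := hφ'par γ hγ
    rw [← hψ', castHomL_apply] at h1
    exact_mod_cast h1
  · intro γ σ γ' h
    have h1 := hform γ σ γ' h
    rw [← hψ', castHomL_apply] at h1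
    exact_mod_cast h1.symm

/-- **(B1), data form over `Fin n`.** -/
theorem h23_exists_eigenclass_fin (N : ℕ) [NeZero N] {g : CuspForm (Gamma0 N) 2}
    (hg : g.IsNormalizedEigenform) (p : ℕ) [Fact p.Prime] {κ : Type*} [Field κ] [CharP κ p]
    (π : integralClosure ℤ ℂ →+* κ) :
    ∃ (n : ℕ) (ψ : Fin n → (Additive (Gamma0 N) →+ ℤ)) (c' : Fin n → κ),
      (∀ j, ψ j ∈ parabolicHoms ℤ (Gamma0 N) ℤ) ∧
      (∀ φ ∈ parabolicHoms ℤ (Gamma0 N) ℤ, ∃ m : Fin n → ℤ, φ = ∑ j, m j • ψ j) ∧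
      (∀ c₀ : Fin n → ZMod p, ∑ j, c₀ j • castHomL (ZMod p) (ψ j) = 0 → c₀ = 0) ∧
      (∀ c₀ : Fin n → κ, ∑ j, c₀ j • castHomL κ (ψ j) = 0 → c₀ = 0) ∧
      c' ≠ 0 ∧
      ∀ (ℓ : ℕ) [Fact ℓ.Prime] (_ : ¬ ℓ ∣ N) (a : integralClosure ℤ ℂ)
        (_ : (a : ℂ) = qCoeff g ℓ) (γ : Gamma0 N)
        (σ : Equiv.Perm (OnePoint (ZMod ℓ))) (γ' : OnePoint (ZMod ℓ) → SL(2, ℤ))
        (h : CosetData (tA ℓ) (tB ℓ) (tD ℓ) N (γ : SL(2, ℤ)) σ γ'),
        ∑ x, (∑ j, c' j • castHomL κ (ψ j)) (Additive.ofMul (⟨γ' x, h.1 x⟩ : Gamma0 N))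
          = π a * (∑ j, c' j • castHomL κ (ψ j)) (Additive.ofMul γ) := by
  obtain ⟨ι, _, ψ, c', hψ, hspan, hindp, hindκ, hc', heig⟩ :=
    h23_exists_eigenclass_data N hg p π
  let e : ι ≃ Fin (Fintype.card ι) := Fintype.equivFin ι
  have hzero : ∀ {R : Type _} [Zero R] (c₀ : Fin (Fintype.card ι) → R),
      (fun i => c₀ (e i)) = 0 → c₀ = 0 := by
    intro R _ c₀ h
    funext j
    have := congrFun h (e.symm j)
    simpa using this
  have hzeroκ : ∀ (c₀ : Fin (Fintype.card ι) → κ),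
      (fun i => c₀ (e i)) = 0 → c₀ = 0 := by
    intro c₀ h
    funext j
    have := congrFun h (e.symm j)
    simpa using this
  refine ⟨Fintype.card ι, fun j => ψ (e.symm j), fun j => c' (e.symm j),
    fun j => hψ _, ?_, ?_, ?_, ?_, ?_⟩
  · intro φ hφ
    obtain ⟨m, hm⟩ := hspan φ hφ
    refine ⟨fun j => m (e.symm j), ?_⟩
    rw [hm]
    exact (Equiv.sum_comp e.symm fun i => m i • ψ i).symm
  · intro c₀ h0
    refine hzero c₀ (hindp _ ?_)
    rw [← h0, ← Equiv.sum_comp e.symm]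
    simp
  · intro c₀ h0
    refine hzeroκ c₀ (hindκ _ ?_)
    rw [← h0, ← Equiv.sum_comp e.symm]
    simp
  · intro h0
    apply hc'
    funext i
    have := congrFun h0 (e i)
    simpa using this
  · intro ℓ _ hℓN a ha γ σ γ' h
    have h1 := Equiv.sum_comp e.symm fun i => c' i • castHomL κ (ψ i)
    rw [h1]
    exact heig ℓ hℓN a ha γ σ γ' h

/-- **(B1) [TOP], matrix form.** -/
theorem h23_top_eigen (N : ℕ) [NeZero N] (g : CuspForm (Gamma0 N) 2)
    (hg : g.IsNormalizedEigenform) (p : ℕ) [Fact p.Prime]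
    (m : Ideal (integralClosure ℤ ℂ)) [m.IsMaximal] (hp : (p : integralClosure ℤ ℂ) ∈ m) :
    ∃ (n : ℕ) (b : Fin n → (Additive (Gamma0 N) →+ ℤ)) (t : ℕ → Matrix (Fin n) (Fin n) ℤ)
      (a : ℕ → integralClosure ℤ ℂ) (w : Fin n → (integralClosure ℤ ℂ ⧸ m)),
      (∀ j, IsParabolicHom (Gamma0 N) (b j)) ∧
      LinearIndependent (ZMod p) (fun j => (Int.castAddHom (ZMod p)).comp (b j)) ∧
      (∀ (l : ℕ) [Fact l.Prime], ¬ l ∣ N → ∀ (γ : Gamma0 N)
        (σ : Equiv.Perm (OnePoint (ZMod l))) (γ' : OnePoint (ZMod l) → SL(2, ℤ))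
        (h : CosetData (tA l) (tB l) (tD l) N (γ : SL(2, ℤ)) σ γ'), ∀ j,
        ∑ i, b j (Additive.ofMul (⟨γ' i, h.1 i⟩ : Gamma0 N))
          = ∑ k, t l k j * b k (Additive.ofMul γ)) ∧
      (∀ l : ℕ, l.Prime → ¬ l ∣ N → ((a l : integralClosure ℤ ℂ) : ℂ) = qCoeff g l) ∧
      w ≠ 0 ∧
      ∀ l : ℕ, l.Prime → ¬ l ∣ N → ∀ k,
        ∑ j, ((t l k j : ℤ) : integralClosure ℤ ℂ ⧸ m) * w j
          = Ideal.Quotient.mk m (a l) * w k := by
  classical
  letI : Field (integralClosure ℤ ℂ ⧸ m) := Ideal.Quotient.field m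
  haveI : CharP (integralClosure ℤ ℂ ⧸ m) p := by
    rw [CharP.charP_iff_prime_eq_zero (Fact.out : p.Prime)]
    have := Ideal.Quotient.eq_zero_iff_mem.mpr hp
    simpa using this
  obtain ⟨n, b, w, hb, hspan, hindp, hindκ, hw, heig⟩ :=
    h23_exists_eigenclass_fin N hg p (Ideal.Quotient.mk m)
  -- the matrices
  have hT : ∀ l : ℕ, ∃ t : Matrix (Fin n) (Fin n) ℤ, ∀ [Fact l.Prime], ¬ l ∣ N →
      ∀ (γ : Gamma0 N) (σ : Equiv.Perm (OnePoint (ZMod l)))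
        (γ' : OnePoint (ZMod l) → SL(2, ℤ))
        (h : CosetData (tA l) (tB l) (tD l) N (γ : SL(2, ℤ)) σ γ'), ∀ j,
        ∑ i, b j (Additive.ofMul (⟨γ' i, h.1 i⟩ : Gamma0 N))
          = ∑ k, t k j * b k (Additive.ofMul γ) := by
    intro l
    by_cases hl : l.Prime ∧ ¬ l ∣ N
    · haveI : Fact l.Prime := ⟨hl.1⟩
      have h1 : ∀ j, ∃ ψ' : Additive (Gamma0 N) →+ ℤ, ψ' ∈ parabolicHoms ℤ (Gamma0 N) ℤ ∧
          ∀ (γ : Gamma0 N) (σ : Equiv.Perm (OnePoint (ZMod l)))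
            (γ' : OnePoint (ZMod l) → SL(2, ℤ))
            (h : CosetData (tA l) (tB l) (tD l) N (γ : SL(2, ℤ)) σ γ'),
            ∑ x, b j (Additive.ofMul (⟨γ' x, h.1 x⟩ : Gamma0 N)) = ψ' (Additive.ofMul γ) :=
        fun j => h23_hecke_lattice hl.2 (b j) (hb j)
      choose ψ' hψ'mem hψ' using h1
      have h2 : ∀ j, ∃ c : Fin n → ℤ, ψ' j = ∑ k, c k • b k := fun j => hspan _ (hψ'mem j)
      choose c hc using h2
      refine ⟨Matrix.of fun k j => c j k, fun {hF} _ γ σ γ' h j => ?_⟩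
      refine (hψ' j γ σ γ' h).trans ?_
      rw [hc j]
      simp only [AddMonoidHom.finsetSum_apply, AddMonoidHom.smul_apply, smul_eq_mul,
        Matrix.of_apply]
    · exact ⟨0, fun {hF} h2 => absurd ⟨hF.out, h2⟩ hl⟩
  choose t ht using hT
  -- the eigenvalues
  let a : ℕ → integralClosure ℤ ℂ := fun l =>
    if h : l.Prime ∧ ¬ l ∣ N then ⟨qCoeff g l, h23_isIntegral_qCoeff hg h.1 h.2⟩ else 0
  have ha : ∀ l : ℕ, l.Prime → ¬ l ∣ N → ((a l : integralClosure ℤ ℂ) : ℂ) = qCoeff g l := by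
    intro l h1 h2
    simp only [a, dif_pos (show l.Prime ∧ ¬ l ∣ N from ⟨h1, h2⟩)]
  refine ⟨n, b, t, a, w, fun j => hb j, ?_, fun l _ hlN => ht l hlN, ha, hw, ?_⟩
  · rw [Fintype.linearIndependent_iff]
    intro c₀ h0 i
    exact congrFun (hindp c₀ h0) i
  · intro l hl hlN k
    haveI : Fact l.Prime := ⟨hl⟩
    -- the coefficient vector of `T_l χ - ā χ` vanishes
    have key : (fun k => ∑ j, ((t l k j : ℤ) : integralClosure ℤ ℂ ⧸ m) * w j
        - Ideal.Quotient.mk m (a l) * w k) = 0 := by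
      refine hindκ _ (AddMonoidHom.ext fun γ => ?_)
      obtain ⟨σ, γ', h⟩ := exists_cosetData_T hlN (Additive.toMul γ)
      have h1 := heig l hlN (a l) (ha l hl hlN) (Additive.toMul γ) σ γ' h
      simp only [AddMonoidHom.finsetSum_apply, AddMonoidHom.smul_apply, castHomL_apply,
        smul_eq_mul, AddMonoidHom.zero_apply] at h1 ⊢
      have h2 : ∀ j, ∑ x, (((b j) (Additive.ofMul (⟨γ' x, h.1 x⟩ : Gamma0 N)) : ℤ) :
          integralClosure ℤ ℂ ⧸ m)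
          = ∑ k, ((t l k j : ℤ) : integralClosure ℤ ℂ ⧸ m) *
              (((b k) (Additive.ofMul (Additive.toMul γ)) : ℤ) : integralClosure ℤ ℂ ⧸ m) := by
        intro j
        have := congrArg (fun z : ℤ => (z : integralClosure ℤ ℂ ⧸ m))
          (ht l hlN (Additive.toMul γ) σ γ' h j)
        simpa only [Int.cast_sum, Int.cast_mul] using this
      rw [Finset.sum_comm] at h1
      simp only [← Finset.mul_sum, h2] at h1
      simp only [sub_mul, Finset.sum_sub_distrib]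
      rw [sub_eq_zero]
      have e1 : ∑ x, (∑ j, ((t l x j : ℤ) : integralClosure ℤ ℂ ⧸ m) * w j) *
          (((b x) γ : ℤ) : integralClosure ℤ ℂ ⧸ m)
          = ∑ j, w j * ∑ k, ((t l k j : ℤ) : integralClosure ℤ ℂ ⧸ m) *
              (((b k) (Additive.ofMul (Additive.toMul γ)) : ℤ) : integralClosure ℤ ℂ ⧸ m) := by
        simp only [Finset.sum_mul, Finset.mul_sum]
        rw [Finset.sum_comm]
        refine Finset.sum_congr rfl fun j _ => Finset.sum_congr rfl fun k _ => ?_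
        simp only [ofMul_toMul]
        ring
      rw [e1, h1, Finset.mul_sum]
      refine Finset.sum_congr rfl fun j _ => ?_
      simp only [ofMul_toMul]
      ring
    have := congrFun key k
    simpa only [Pi.zero_apply, sub_eq_zero] using this

end Fermat.Agent.S42x.Top.H23
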