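import Fermat.Agent.S49.EigenformBridge
import Fermat.Agent.S22
import Fermat.Agent.S16x.Low.H5_PerHecke
import Fermat.Agent.S16x.Low.H23_Lift

/-!
# W7 (S42 / S29), package (B1) [TOP], analytic input (helper23)

For a normalised weight two eigenform `g` on `Γ₀(N)` in the sense of the prelude
(`CuspForm.IsNormalizedEigenform`: relations between `q`-coefficients):

* `h23_heckeTLin_eq`       : `T_ℓ g = a_ℓ(g) • g` for every prime `ℓ ∤ N`;
* `h23_eigenform_ne_zero`  : `g ≠ 0`;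
* `h23_isIntegral_qCoeff`  : `a_ℓ(g)` is an algebraic integer (`ℓ ∤ N`), from S22;
* `h23_periodClass`        : the period class `φ_g = periodHomPair N (g, 0)`, a nonzero parabolic
  homomorphism `Γ₀(N) → ℂ` with `∑_x φ_g(γ'_x) = a_ℓ(g) φ_g(γ)` for every coset datum.
-/

set_option autoImplicit false
set_option linter.style.haveILetI false

namespace Fermat.Agent.S42x.Top.H23

open UpperHalfPlane ModularFormClass CongruenceSubgroup ModularCurve ModularCurve.Period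
open Fermat.Agent.S49 Fermat.Agent.S22 Fermat.Agent.S16x.Low.H5
open scoped MatrixGroups

variable {N : ℕ}

/-- `qCoeff` of a difference of cusp forms. -/
theorem h23_qCoeff_sub_cuspForm {k : ℤ} (f g : CuspForm (Gamma0 N) k) (n : ℕ) :
    qCoeff (f - g : CuspForm (Gamma0 N) k) n = qCoeff f n - qCoeff g n := by
  have h1 : ((f - g : CuspForm (Gamma0 N) k) : ℍ → ℂ) = (f : ℍ → ℂ) - (g : ℍ → ℂ) := rfl
  unfold qCoeff
  rw [h1, ModularForm.qExpansion_sub one_pos
    (CongruenceSubgroup.one_mem_strictPeriods_Gamma0 N) f g]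
  simp

/-- The coefficient form of the eigen-equation `T_ℓ g = a_ℓ g`. -/
theorem h23_coeffHeckeT_eq {g : CuspForm (Gamma0 N) 2} (hg : g.IsNormalizedEigenform)
    {ℓ : ℕ} (hℓ : ℓ.Prime) (hℓN : ¬ ℓ ∣ N) (n : ℕ) :
    ModularForm.coeffHeckeT 2 ℓ (fun m => qCoeff g m) n = qCoeff g ℓ * qCoeff g n := by
  rw [ModularForm.coeffHeckeT_apply]
  have hpow : ((ℓ : ℂ)) ^ ((2 : ℤ) - 1) = (ℓ : ℂ) := by norm_num
  rw [hpow]
  rcases Nat.eq_zero_or_pos n with hn0 | hnpos
  · subst hn0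
    simp [qCoeff_zero_cuspForm]
  obtain ⟨r, m, hm, rfl⟩ := Nat.exists_eq_pow_mul_and_not_dvd hnpos.ne' ℓ hℓ.ne_one
  have hcop : ∀ s : ℕ, Nat.Coprime (ℓ ^ s) m :=
    fun s => Nat.Coprime.pow_left s ((Nat.Prime.coprime_iff_not_dvd hℓ).2 hm)
  rcases Nat.eq_zero_or_pos r with hr0 | hrpos
  · subst hr0
    have hnd : ¬ ℓ ∣ ℓ ^ 0 * m := by simpa using hm
    rw [if_neg hnd, add_zero, pow_zero, one_mul, mul_comm m ℓ]
    have := hg.qCoeff_mul_of_coprime ℓ m (by simpa using hcop 1)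
    rw [this]
  · obtain ⟨s, rfl⟩ : ∃ s, r = s + 1 := ⟨r - 1, by omega⟩
    have hd : ℓ ∣ ℓ ^ (s + 1) * m := Dvd.dvd.mul_right (dvd_pow_self ℓ (by omega)) m
    rw [if_pos hd]
    have e1 : ℓ ^ (s + 1) * m * ℓ = ℓ ^ (s + 2) * m := by ring
    have e2 : ℓ ^ (s + 1) * m / ℓ = ℓ ^ s * m := by
      rw [pow_succ, mul_assoc, mul_comm ℓ m, ← mul_assoc]
      exact Nat.mul_div_cancel _ hℓ.pos
    rw [e1, e2, hg.qCoeff_mul_of_coprime _ _ (hcop (s + 2)),
      hg.qCoeff_mul_of_coprime _ _ (hcop s), hg.qCoeff_mul_of_coprime _ _ (hcop (s + 1)),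
      hg.qCoeff_prime_pow_of_not_dvd ℓ s hℓ hℓN]
    ring

/-- A normalised eigenform is an eigenvector of `T_ℓ` with eigenvalue `a_ℓ`, `ℓ ∤ N`. -/
theorem h23_heckeTLin_eq {g : CuspForm (Gamma0 N) 2} (hg : g.IsNormalizedEigenform)
    {ℓ : ℕ} (hℓ : ℓ.Prime) (hℓN : ¬ ℓ ∣ N) :
    CuspForm.heckeTLin 2 hℓ hℓN g = qCoeff g ℓ • g := by
  rw [← sub_eq_zero]
  apply cuspForm_eq_zero_of_qCoeff
  intro n
  rw [h23_qCoeff_sub_cuspForm, qCoeff_heckeTLin_cuspForm, qCoeff_smul_cuspForm,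
    h23_coeffHeckeT_eq hg hℓ hℓN, sub_self]

/-- A normalised eigenform is nonzero. -/
theorem h23_eigenform_ne_zero {g : CuspForm (Gamma0 N) 2} (hg : g.IsNormalizedEigenform) :
    g ≠ 0 := by
  intro h0
  have h1 := hg.qCoeff_one
  rw [h0] at h1
  have h2 : qCoeff ((0 : CuspForm (Gamma0 N) 2) : ℍ → ℂ) 1 = 0 := by
    have := qCoeff_smul_cuspForm (0 : ℂ) (0 : CuspForm (Gamma0 N) 2) 1
    simpa using this
  rw [h2] at h1
  exact zero_ne_one h1

/-- The Hecke eigenvalues `a_ℓ`, `ℓ ∤ N`, of a normalised eigenform are algebraic integers. -/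
theorem h23_isIntegral_qCoeff [NeZero N] {g : CuspForm (Gamma0 N) 2}
    (hg : g.IsNormalizedEigenform) {ℓ : ℕ} (hℓ : ℓ.Prime) (hℓN : ¬ ℓ ∣ N) :
    IsIntegral ℤ (qCoeff g ℓ) := by
  haveI : Module.Finite ℤ (CuspForm.heckeAlgebra N 2 ∅) := Fermat.Agent.S22.result N 2 ∅
  have hT : IsIntegral ℤ (CuspForm.heckeAlgebra.T (N := N) (k := 2) (S := ∅) hℓ hℓN
      (Set.notMem_empty ℓ)) := IsIntegral.of_finite ℤ _
  obtain ⟨P, hPmonic, hP⟩ := hT
  refine ⟨P, hPmonic, ?_⟩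
  -- evaluate at the eigenvector
  have hP' : Polynomial.aeval (CuspForm.heckeTLin 2 hℓ hℓN :
      Module.End ℂ (CuspForm (Gamma0 N) 2)) P = 0 := by
    have h1 := congrArg (Subalgebra.val (CuspForm.heckeAlgebra N 2 ∅)) hP
    rw [← Polynomial.aeval_def, ← Polynomial.aeval_algHom_apply] at h1
    simpa using h1
  have hev : ∀ Q : Polynomial ℤ, Polynomial.aeval (CuspForm.heckeTLin 2 hℓ hℓN :
      Module.End ℂ (CuspForm (Gamma0 N) 2)) Q g = (Polynomial.aeval (qCoeff g ℓ) Q) • g := by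
    intro Q
    induction Q using Polynomial.induction_on' with
    | add p q hp hq => rw [map_add, map_add, LinearMap.add_apply, hp, hq, add_smul]
    | monomial n a =>
      rw [Polynomial.aeval_monomial, Polynomial.aeval_monomial]
      have hpow : ∀ n : ℕ, ((CuspForm.heckeTLin 2 hℓ hℓN :
          Module.End ℂ (CuspForm (Gamma0 N) 2)) ^ n) g = (qCoeff g ℓ) ^ n • g := by
        intro n
        induction n with
        | zero => simp
        | succ n ih =>
          rw [pow_succ, Module.End.mul_apply, h23_heckeTLin_eq hg hℓ hℓN, map_smul, ih,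
            smul_smul, pow_succ, mul_comm]
      rw [Module.End.mul_apply, hpow, map_smul]
      simp only [Module.algebraMap_end_apply]
      rw [mul_comm, ← smul_smul]
      simp only [eq_intCast]
      rw [Int.cast_smul_eq_zsmul]
  have h2 := hev P
  rw [hP', LinearMap.zero_apply] at h2
  rcases smul_eq_zero.mp h2.symm with h3 | h3
  · rw [← Polynomial.aeval_def]; exact h3
  · exact absurd h3 (h23_eigenform_ne_zero hg)

/-- **The period class of a normalised eigenform**: a nonzero parabolic homomorphism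
`φ : Γ₀(N) → ℂ` which is an eigenvector, with eigenvalue `a_ℓ(g)`, of every `T_ℓ` (`ℓ ∤ N`) in
coset form. -/
theorem h23_periodClass [NeZero N] {g : CuspForm (Gamma0 N) 2}
    (hg : g.IsNormalizedEigenform) :
    ∃ φ : Additive (Gamma0 N) →+ ℂ, φ ≠ 0 ∧ φ ∈ parabolicHoms ℂ (Gamma0 N) ℂ ∧
      ∀ (ℓ : ℕ) [Fact ℓ.Prime] (_ : ¬ ℓ ∣ N) (γ : Gamma0 N)
        (σ : Equiv.Perm (OnePoint (ZMod ℓ))) (γ' : OnePoint (ZMod ℓ) → SL(2, ℤ))
        (h : CosetData (tA ℓ) (tB ℓ) (tD ℓ) N (γ : SL(2, ℤ)) σ γ'),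
        ∑ x, φ (Additive.ofMul (⟨γ' x, h.1 x⟩ : Gamma0 N))
          = qCoeff g ℓ * φ (Additive.ofMul γ) := by
  obtain ⟨hinj, hrange⟩ := Fermat.Agent.S21.result N
  refine ⟨periodHomPair N (g, 0), ?_, ?_, ?_⟩
  · intro h0
    have h1 : periodHomPair N (g, 0) = periodHomPair N 0 := by rw [h0, map_zero]
    have h2 := hinj h1
    exact h23_eigenform_ne_zero hg (congrArg Prod.fst h2)
  · rw [← hrange]
    exact LinearMap.mem_range_self _ _
  · intro ℓ _ hℓN γ σ γ' h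
    have h1 := periodHomPair_heckeT hℓN g 0 γ σ γ' h
    rw [← h1, map_zero, h23_heckeTLin_eq hg Fact.out hℓN]
    have h2 : ((qCoeff g ℓ • g, (0 : CuspForm (Gamma0 N) 2)) :
        CuspForm (Gamma0 N) 2 × CuspForm (Gamma0 N) 2) = qCoeff g ℓ • (g, 0) := by
      rw [Prod.smul_mk, smul_zero]
    rw [h2, map_smul]
    rfl

end Fermat.Agent.S42x.Top.H23
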