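import Fermat.Agent.S42x.Top.H23_Det
import Fermat.Agent.S42x.Top.H23_Eigen

/-!
# W7 (S42 / S29), package (B1) [TOP] (helper23): the residual Hecke eigenclass

For a normalised weight two eigenform `g` on `Γ₀(N)`, a prime `p`, a field `κ` of
characteristic `p` and a ring homomorphism `π : ℤ̄ → κ` (`ℤ̄ = integralClosure ℤ ℂ`), there is a
**nonzero** homomorphism `χ : Γ₀(N) → κ` which

* kills every parabolic and every elliptic element (`trace ^ 2 ≤ 4`);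
* is a `κ`-combination of reductions of integral parabolic classes `Γ₀(N) → ℤ`;
* is an eigenvector of every `T_ℓ` (`ℓ ∤ N`) with eigenvalue `π(a_ℓ(g))`, in coset form:
  `∑_x χ(γ'_x) = π(a_ℓ) χ(γ)` for every coset datum `(σ, γ')` of `γ`.

`h23_exists_eigenclass_data` is the data form (basis of integral classes + coefficients),
`h23_exists_eigenclass` the general form, `h23_exists_eigenclass_quot` the form for
`κ = ℤ̄ ⧸ 𝔪`, and `h23_exists_intCoeff` is the integrality of `a_ℓ(g)`.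
-/

set_option autoImplicit false
set_option linter.style.haveILetI false

namespace Fermat.Agent.S42x.Top.H23

open UpperHalfPlane ModularFormClass CongruenceSubgroup ModularCurve ModularCurve.Period
open Fermat.Agent.S22 Fermat.Agent.S16x.Low.H5 Fermat.Agent.S16x.Low.H23
open scoped MatrixGroups

/-- Integrality of the Hecke eigenvalues, in the spelling of the S42 target. -/
theorem h23_exists_intCoeff {N : ℕ} [NeZero N] {g : CuspForm (Gamma0 N) 2}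
    (hg : g.IsNormalizedEigenform) {ℓ : ℕ} (hℓ : ℓ.Prime) (hℓN : ¬ ℓ ∣ N) :
    ∃ a : integralClosure ℤ ℂ, (a : ℂ) = qCoeff g ℓ :=
  ⟨⟨qCoeff g ℓ, h23_isIntegral_qCoeff hg hℓ hℓN⟩, rfl⟩

/-- **(B1), data form.**  A finite family of integral parabolic classes `ψ j : Γ₀(N) → ℤ`
(a `ℤ`-basis of the lattice of all of them) whose reductions are linearly independent over
`𝔽_p` and over `κ`, and coefficients `c' j ∈ κ`, not all zero, such that
`χ = ∑ j, c' j • (ψ j mod p)` is a Hecke eigenclass with eigenvalues `π(a_ℓ(g))`. -/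
theorem h23_exists_eigenclass_data (N : ℕ) [NeZero N] {g : CuspForm (Gamma0 N) 2}
    (hg : g.IsNormalizedEigenform) (p : ℕ) [Fact p.Prime] {κ : Type*} [Field κ] [CharP κ p]
    (π : integralClosure ℤ ℂ →+* κ) :
    ∃ (ι : Type) (_ : Fintype ι) (ψ : ι → (Additive (Gamma0 N) →+ ℤ)) (c' : ι → κ),
      (∀ j, ψ j ∈ parabolicHoms ℤ (Gamma0 N) ℤ) ∧
      (∀ φ ∈ parabolicHoms ℤ (Gamma0 N) ℤ, ∃ n : ι → ℤ, φ = ∑ j, n j • ψ j) ∧
      (∀ c₀ : ι → ZMod p, ∑ j, c₀ j • castHomL (ZMod p) (ψ j) = 0 → c₀ = 0) ∧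
      (∀ c₀ : ι → κ, ∑ j, c₀ j • castHomL κ (ψ j) = 0 → c₀ = 0) ∧
      c' ≠ 0 ∧
      ∀ (ℓ : ℕ) [Fact ℓ.Prime] (_ : ¬ ℓ ∣ N) (a : integralClosure ℤ ℂ)
        (_ : (a : ℂ) = qCoeff g ℓ) (γ : Gamma0 N)
        (σ : Equiv.Perm (OnePoint (ZMod ℓ))) (γ' : OnePoint (ZMod ℓ) → SL(2, ℤ))
        (h : CosetData (tA ℓ) (tB ℓ) (tD ℓ) N (γ : SL(2, ℤ)) σ γ'),
        ∑ x, (∑ j, c' j • castHomL κ (ψ j)) (Additive.ofMul (⟨γ' x, h.1 x⟩ : Gamma0 N))
          = π a * (∑ j, c' j • castHomL κ (ψ j)) (Additive.ofMul γ) := by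
  classical
  haveI := groupFG_Gamma0 N
  obtain ⟨φ, hφ0, hφpar, hφeig⟩ := h23_periodClass hg
  haveI := homsKillingZ_moduleFinite (parSet N)
  haveI := homsKillingZ_moduleFree (parSet N)
  let b := Module.Free.chooseBasis ℤ ↥(homsKilling ℤ (parSet N) ℤ)
  -- `φ` is a complex combination of the basis
  have hφspan : φ ∈ Submodule.span ℂ
      (Set.range fun j => castHomL ℂ (b j : Additive (Gamma0 N) →+ ℤ)) := by
    rw [parabolicHoms_eq_homsKilling] at hφpar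
    refine (homsKilling_le_span (parSet N) |>.trans (Submodule.span_le.mpr ?_)) hφpar
    rintro _ ⟨ψ, hψ, rfl⟩
    have h1 := b.sum_repr ⟨ψ, hψ⟩
    have h2 := congrArg
      (fun x : ↥(homsKilling ℤ (parSet N) ℤ) => castHomL ℂ (x : Additive (Gamma0 N) →+ ℤ)) h1
    simp only [Submodule.coe_sum, Submodule.coe_smul, map_sum, map_zsmul] at h2
    rw [SetLike.mem_coe, ← h2]
    refine Submodule.sum_mem _ fun i _ => ?_
    rw [← Int.cast_smul_eq_zsmul ℂ]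
    exact Submodule.smul_mem _ _ (Submodule.subset_span ⟨i, rfl⟩)
  obtain ⟨c, hcφ⟩ := (Submodule.mem_span_range_iff_exists_fun ℂ).mp hφspan
  have hφapply : ∀ γ : Additive (Gamma0 N),
      φ γ = ∑ j, c j * (((b j : Additive (Gamma0 N) →+ ℤ) γ : ℤ) : ℂ) := by
    intro γ
    rw [← hcφ]
    simp only [AddMonoidHom.finsetSum_apply, AddMonoidHom.smul_apply, castHomL_apply,
      smul_eq_mul]
  have hc : c ≠ 0 := by
    rintro rfl
    apply hφ0
    rw [← hcφ]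
    simp
  -- the relation vectors
  let S : Set (Module.Free.ChooseBasisIndex ℤ ↥(homsKilling ℤ (parSet N) ℤ) →
      integralClosure ℤ ℂ) :=
    {w | ∃ (ℓ : ℕ) (_ : Fact ℓ.Prime) (_ : ¬ ℓ ∣ N) (a : integralClosure ℤ ℂ)
        (_ : (a : ℂ) = qCoeff g ℓ) (γ : Gamma0 N)
        (σ : Equiv.Perm (OnePoint (ZMod ℓ))) (γ' : OnePoint (ZMod ℓ) → SL(2, ℤ))
        (h : CosetData (tA ℓ) (tB ℓ) (tD ℓ) N (γ : SL(2, ℤ)) σ γ'),
        w = fun j => ((∑ x, (b j : Additive (Gamma0 N) →+ ℤ)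
              (Additive.ofMul (⟨γ' x, h.1 x⟩ : Gamma0 N)) : ℤ) : integralClosure ℤ ℂ)
            - a * (((b j : Additive (Gamma0 N) →+ ℤ) (Additive.ofMul γ) : ℤ) :
                integralClosure ℤ ℂ)}
  have hS : ∀ w ∈ S, ∑ j, c j * algebraMap (integralClosure ℤ ℂ) ℂ (w j) = 0 := by
    rintro w ⟨ℓ, hℓ, hℓN, a, ha, γ, σ, γ', h, rfl⟩
    have h1 := hφeig ℓ hℓN γ σ γ' h
    simp only [hφapply] at h1
    rw [Finset.sum_comm, Finset.mul_sum, ← sub_eq_zero, ← Finset.sum_sub_distrib] at h1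
    rw [← h1]
    refine Finset.sum_congr rfl fun j _ => ?_
    simp only [map_sub, map_mul, map_intCast, map_sum, Int.cast_sum]
    have ha' : algebraMap (integralClosure ℤ ℂ) ℂ a = qCoeff g ℓ := ha
    rw [ha', mul_sub, Finset.mul_sum]
    ring
  obtain ⟨c', hc'0, hc'⟩ := h23_det_reduction (algebraMap (integralClosure ℤ ℂ) ℂ)
    Subtype.val_injective π S c hc hS
  -- independence of the reductions
  have hli := linearIndependent_red (parSet N) (parSet N) (fun γ h => Or.inl h) p b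
  rw [Fintype.linearIndependent_iff] at hli
  have hindp : ∀ c₀ : Module.Free.ChooseBasisIndex ℤ ↥(homsKilling ℤ (parSet N) ℤ) → ZMod p,
      ∑ j, c₀ j • castHomL (ZMod p) (b j : Additive (Gamma0 N) →+ ℤ) = 0 → c₀ = 0 := by
    intro c₀ hc₀
    funext i
    refine hli c₀ ?_ i
    apply Subtype.ext
    simpa only [Submodule.coe_sum, Submodule.coe_smul, Submodule.coe_zero] using hc₀
  have hindκ : ∀ c₀ : Module.Free.ChooseBasisIndex ℤ ↥(homsKilling ℤ (parSet N) ℤ) → κ,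
      ∑ j, c₀ j • castHomL κ (b j : Additive (Gamma0 N) →+ ℤ) = 0 → c₀ = 0 := by
    intro c₀ h0
    have hχ : ∀ γ : Additive (Gamma0 N),
        ∑ j, c₀ j * (((b j : Additive (Gamma0 N) →+ ℤ) γ : ℤ) : κ) = 0 := by
      intro γ
      have := congrArg (fun f : Additive (Gamma0 N) →+ κ => f γ) h0
      simpa only [AddMonoidHom.finsetSum_apply, AddMonoidHom.smul_apply, castHomL_apply,
        smul_eq_mul, AddMonoidHom.zero_apply] using this
    refine h23_indep_extend (ZMod.castHom (dvd_refl p) κ)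
      (Set.range fun γ : Additive (Gamma0 N) =>
        fun j => (((b j : Additive (Gamma0 N) →+ ℤ) γ : ℤ) : ZMod p)) ?_ c₀ ?_
    · intro c₁ hc₁
      refine hindp c₁ (AddMonoidHom.ext fun γ => ?_)
      have := hc₁ _ ⟨γ, rfl⟩
      simpa only [AddMonoidHom.finsetSum_apply, AddMonoidHom.smul_apply, castHomL_apply,
        smul_eq_mul, AddMonoidHom.zero_apply] using this
    · rintro _ ⟨γ, rfl⟩
      simpa only [map_intCast] using hχ γ
  -- the data
  refine ⟨Module.Free.ChooseBasisIndex ℤ ↥(homsKilling ℤ (parSet N) ℤ), inferInstance,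
    fun j => (b j : Additive (Gamma0 N) →+ ℤ), c', fun j => ?_, ?_, hindp, hindκ, hc'0, ?_⟩
  · rw [parabolicHoms_eq_homsKilling]
    exact (b j).2
  · intro φ₀ hφ₀
    rw [parabolicHoms_eq_homsKilling] at hφ₀
    refine ⟨fun j => b.repr ⟨φ₀, hφ₀⟩ j, ?_⟩
    have h1 := b.sum_repr ⟨φ₀, hφ₀⟩
    have h2 := congrArg (fun x : ↥(homsKilling ℤ (parSet N) ℤ) =>
      (x : Additive (Gamma0 N) →+ ℤ)) h1
    simp only [Submodule.coe_sum, Submodule.coe_smul] at h2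
    exact h2.symm
  · -- the eigen-equation
    intro ℓ hℓ hℓN a ha γ σ γ' h
    have h1 := hc' _ ⟨ℓ, hℓ, hℓN, a, ha, γ, σ, γ', h, rfl⟩
    simp only [map_sub, map_mul, map_intCast, map_sum, Int.cast_sum] at h1
    simp only [AddMonoidHom.finsetSum_apply, AddMonoidHom.smul_apply, castHomL_apply,
      smul_eq_mul]
    rw [Finset.sum_comm, Finset.mul_sum, ← sub_eq_zero, ← Finset.sum_sub_distrib, ← h1]
    refine Finset.sum_congr rfl fun j _ => ?_
    rw [mul_sub, Finset.mul_sum]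
    ring

/-- **(B1), general form**: the residual Hecke eigenclass `χ : Γ₀(N) → κ`. -/
theorem h23_exists_eigenclass (N : ℕ) [NeZero N] {g : CuspForm (Gamma0 N) 2}
    (hg : g.IsNormalizedEigenform) (p : ℕ) [Fact p.Prime] {κ : Type*} [Field κ] [CharP κ p]
    (π : integralClosure ℤ ℂ →+* κ) :
    ∃ χ : Additive (Gamma0 N) →+ κ,
      χ ≠ 0 ∧
      (∀ γ : Gamma0 N, ((γ : SL(2, ℤ)) : Matrix (Fin 2) (Fin 2) ℤ).trace ^ 2 ≤ 4 →
        χ (Additive.ofMul γ) = 0) ∧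
      χ ∈ Submodule.span κ
        ((castHomL κ) '' (parabolicHoms ℤ (Gamma0 N) ℤ : Set (Additive (Gamma0 N) →+ ℤ))) ∧
      ∀ (ℓ : ℕ) [Fact ℓ.Prime] (_ : ¬ ℓ ∣ N) (a : integralClosure ℤ ℂ)
        (_ : (a : ℂ) = qCoeff g ℓ) (γ : Gamma0 N)
        (σ : Equiv.Perm (OnePoint (ZMod ℓ))) (γ' : OnePoint (ZMod ℓ) → SL(2, ℤ))
        (h : CosetData (tA ℓ) (tB ℓ) (tD ℓ) N (γ : SL(2, ℤ)) σ γ'),
        ∑ x, χ (Additive.ofMul (⟨γ' x, h.1 x⟩ : Gamma0 N)) = π a * χ (Additive.ofMul γ) := by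
  obtain ⟨ι, _, ψ, c', hψ, -, -, hindκ, hc', heig⟩ := h23_exists_eigenclass_data N hg p π
  refine ⟨∑ j, c' j • castHomL κ (ψ j), fun h0 => hc' (hindκ c' h0), ?_, ?_, heig⟩
  · intro γ hγ
    simp only [AddMonoidHom.finsetSum_apply, AddMonoidHom.smul_apply, castHomL_apply,
      smul_eq_mul]
    refine Finset.sum_eq_zero fun j _ => ?_
    have hj := hψ j
    rw [parabolicHoms_eq_homsKilling] at hj
    have : ψ j (Additive.ofMul γ) = 0 :=
      apply_eq_zero_of_tors (parEll_tors N) hj (C' := parEllSet N) hγ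
    rw [this, Int.cast_zero, mul_zero]
  · exact Submodule.sum_mem _ fun j _ =>
      Submodule.smul_mem _ _ (Submodule.subset_span ⟨ψ j, hψ j, rfl⟩)

/-- **(B1), quotient form**: `κ = ℤ̄ ⧸ 𝔪` for a maximal ideal `𝔪` containing `p`. -/
theorem h23_exists_eigenclass_quot (N : ℕ) [NeZero N] {g : CuspForm (Gamma0 N) 2}
    (hg : g.IsNormalizedEigenform) (p : ℕ) (hp : p.Prime)
    (𝔪 : Ideal (integralClosure ℤ ℂ)) (h𝔪 : 𝔪.IsMaximal)
    (hp𝔪 : (p : integralClosure ℤ ℂ) ∈ 𝔪) :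
    ∃ χ : Additive (Gamma0 N) →+ (integralClosure ℤ ℂ ⧸ 𝔪),
      χ ≠ 0 ∧
      (∀ γ : Gamma0 N, ((γ : SL(2, ℤ)) : Matrix (Fin 2) (Fin 2) ℤ).trace ^ 2 ≤ 4 →
        χ (Additive.ofMul γ) = 0) ∧
      χ ∈ Submodule.span (integralClosure ℤ ℂ ⧸ 𝔪)
        ((castHomL (integralClosure ℤ ℂ ⧸ 𝔪)) ''
          (parabolicHoms ℤ (Gamma0 N) ℤ : Set (Additive (Gamma0 N) →+ ℤ))) ∧
      ∀ (ℓ : ℕ) [Fact ℓ.Prime] (_ : ¬ ℓ ∣ N) (a : integralClosure ℤ ℂ)
        (_ : (a : ℂ) = qCoeff g ℓ) (γ : Gamma0 N)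
        (σ : Equiv.Perm (OnePoint (ZMod ℓ))) (γ' : OnePoint (ZMod ℓ) → SL(2, ℤ))
        (h : CosetData (tA ℓ) (tB ℓ) (tD ℓ) N (γ : SL(2, ℤ)) σ γ'),
        ∑ x, χ (Additive.ofMul (⟨γ' x, h.1 x⟩ : Gamma0 N))
          = Ideal.Quotient.mk 𝔪 a * χ (Additive.ofMul γ) := by
  haveI := h𝔪
  haveI : Fact p.Prime := ⟨hp⟩
  letI : Field (integralClosure ℤ ℂ ⧸ 𝔪) := Ideal.Quotient.field 𝔪
  haveI : CharP (integralClosure ℤ ℂ ⧸ 𝔪) p := by
    rw [CharP.charP_iff_prime_eq_zero hp]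
    have := Ideal.Quotient.eq_zero_iff_mem.mpr hp𝔪
    simpa using this
  exact h23_exists_eigenclass N hg p (Ideal.Quotient.mk 𝔪)

end Fermat.Agent.S42x.Top.H23
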