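import Fermat.Agent.S49.Basic
import Fermat.Agent.S49.EigenformBridge

/-!
# W7 (S42 / S29), package [TOP] (helper3): a normalised eigenform is a Hecke eigenvector

`h3t_heckeT_eigen` : for a normalised eigenform `g` on `Γ₀(N)` (prelude: multiplicative
`q`-coefficients with the Hecke recursion) and a prime `ℓ ∤ N`, `T_ℓ g = a_ℓ(g) • g`.
-/

set_option autoImplicit false

open UpperHalfPlane ModularFormClass CongruenceSubgroup

namespace Fermat.Agent.S42x.Top.H3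

variable {N : ℕ}

/-- A normalised eigenform is an eigenvector of `T_ℓ`, `ℓ ∤ N`, with eigenvalue `a_ℓ`. -/
theorem h3t_heckeT_eigen (g : CuspForm (Gamma0 N) 2) (hg : g.IsNormalizedEigenform) {ℓ : ℕ}
    (hℓ : ℓ.Prime) (hℓN : ¬ ℓ ∣ N) :
    CuspForm.heckeTLin 2 hℓ hℓN g = qCoeff g ℓ • g := by
  rw [← sub_eq_zero]
  apply Fermat.Agent.S49.eq_zero_of_forall_qCoeff_eq_zero
  intro n
  rw [Fermat.Agent.S49.qCoeff_sub, Fermat.Agent.S49.qCoeff_smul,
    Fermat.Agent.S49.qCoeff_heckeTLin_cuspForm, ModularForm.coeffHeckeT_apply, sub_eq_zero]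
  have h21 : ((ℓ : ℂ)) ^ ((2 : ℤ) - 1) = (ℓ : ℂ) := by norm_num
  rw [h21]
  by_cases hn : ℓ ∣ n
  · rw [if_pos hn]
    rcases Nat.eq_zero_or_pos n with rfl | hnpos
    · simp [Fermat.Agent.S49.qCoeff_coeff_zero]
    obtain ⟨e, m, hm, rfl⟩ := Nat.exists_eq_pow_mul_and_not_dvd hnpos.ne' ℓ hℓ.ne_one
    have he : e ≠ 0 := by
      rintro rfl
      rw [pow_zero, one_mul] at hn
      exact hm hn
    obtain ⟨r, rfl⟩ := Nat.exists_eq_succ_of_ne_zero he
    have hcop : ∀ s : ℕ, (ℓ ^ s).Coprime m :=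
      fun s => Nat.Coprime.pow_left s ((Nat.Prime.coprime_iff_not_dvd hℓ).mpr hm)
    have e1 : ℓ ^ (r + 1) * m * ℓ = ℓ ^ (r + 2) * m := by ring
    have e2 : ℓ ^ (r + 1) * m / ℓ = ℓ ^ r * m := by
      rw [pow_succ, mul_assoc, mul_comm ℓ m, ← mul_assoc]
      exact Nat.mul_div_cancel _ hℓ.pos
    rw [Nat.succ_eq_add_one, e1, e2, hg.qCoeff_mul_of_coprime _ _ (hcop (r + 2)),
      hg.qCoeff_mul_of_coprime _ _ (hcop (r + 1)), hg.qCoeff_mul_of_coprime _ _ (hcop r),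
      hg.qCoeff_prime_pow_of_not_dvd ℓ r hℓ hℓN]
    ring
  · rw [if_neg hn, add_zero]
    have hcop : n.Coprime ℓ :=
      (Nat.Coprime.symm ((Nat.Prime.coprime_iff_not_dvd hℓ).mpr hn))
    rw [hg.qCoeff_mul_of_coprime _ _ hcop]
    ring

end Fermat.Agent.S42x.Top.H3
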