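import Mathlib

/-!
# W7 (S42 / S29), package [TOP] (helper3): the abstract linear algebra

* `h3t_descent` : a linear system with coefficients in a field `K` which has a non-zero
  solution over an extension `L` has a non-zero solution over `K`;
* `h3t_scale` : a non-zero vector over the fraction field of a valuation ring can be scaled to an
  integral vector with one coordinate equal to `1`;
* `h3t_eigen_red` : reduction of an eigen-system: if `c ≠ 0` is a joint eigenvector over a field
  `L` of matrices with entries in a ring `R → L`, with eigenvalues in `R`, and `m` is a maximal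
  ideal of `R` which is dominated by a valuation ring of `L`, then the reduced matrices have a
  non-zero joint eigenvector over `R ⧸ m` with the reduced eigenvalues.
-/

set_option autoImplicit false
set_option linter.style.haveILetI false

namespace Fermat.Agent.S42x.Top.H3

section Descent

/-- A homogeneous linear system over `K` with a non-zero solution over an extension field has a
non-zero solution over `K`. -/
theorem h3t_descent {K L : Type*} [Field K] [Field L] (φ : K →+* L) {n : ℕ} {J : Type*}
    (r : J → Fin n → K) (w : Fin n → L) (hw : w ≠ 0)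
    (h : ∀ j, ∑ k, φ (r j k) * w k = 0) :
    ∃ w' : Fin n → K, w' ≠ 0 ∧ ∀ j, ∑ k, r j k * w' k = 0 := by
  by_contra hne
  have hall : ∀ w' : Fin n → K, (∀ j, ∑ k, r j k * w' k = 0) → w' = 0 := by
    intro w' hw'
    by_contra h0
    exact hne ⟨w', h0, hw'⟩
  have htop : Submodule.span K (Set.range r) = ⊤ := by
    by_contra hlt
    obtain ⟨f, hf0, hf⟩ := Submodule.exists_le_ker_of_lt_top _ (lt_top_iff_ne_top.mpr hlt)
    apply hf0
    have hfx : ∀ x : Fin n → K, f x = ∑ k, x k * f (Pi.single k 1) := by
      intro x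
      rw [LinearMap.pi_apply_eq_sum_univ f x]
      refine Finset.sum_congr rfl fun k _ => ?_
      rw [smul_eq_mul]
      congr 2
      funext i
      simp [Pi.single_apply, eq_comm]
    have h1 : (fun k => f (Pi.single k 1)) = 0 := hall _ (fun j => by
      have h2 := hf (Submodule.subset_span ⟨j, rfl⟩)
      rw [LinearMap.mem_ker] at h2
      rw [← h2, hfx (r j)])
    apply LinearMap.ext
    intro x
    rw [hfx x]
    simp [congrFun h1]
  apply hw
  have key : ∀ x ∈ Submodule.span K (Set.range r), ∑ k, φ (x k) * w k = 0 := by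
    intro x hx
    induction hx using Submodule.span_induction with
    | mem x hx =>
      obtain ⟨j, rfl⟩ := hx
      exact h j
    | zero => simp
    | add x y _ _ hx hy =>
      simp only [Pi.add_apply, map_add, add_mul, Finset.sum_add_distrib, hx, hy, add_zero]
    | smul c x _ hx =>
      simp only [Pi.smul_apply, smul_eq_mul, map_mul, mul_assoc, ← Finset.mul_sum, hx, mul_zero]
  funext k
  have h3 := key (Pi.single k 1) (htop ▸ Submodule.mem_top)
  simpa [Pi.single_apply, apply_ite φ] using h3

/-- Linear independence of functions with values in a field `K` is preserved by an extension of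
the field of values. -/
theorem h3t_linearIndependent_ext {K L : Type*} [Field K] [Field L] (φ : K →+* L) {n : ℕ}
    {X : Type*} (e : Fin n → X → K)
    (he : ∀ c : Fin n → K, (∀ x, ∑ j, c j * e j x = 0) → c = 0)
    (c : Fin n → L) (hc : ∀ x, ∑ j, c j * φ (e j x) = 0) : c = 0 := by
  by_contra h0
  obtain ⟨c', hc'0, hc'⟩ := h3t_descent φ (fun x j => e j x) c h0
    (fun x => by simpa [mul_comm] using hc x)
  exact hc'0 (he c' (fun x => by simpa [mul_comm] using hc' x))

end Descent

section Scale

/-- A non-zero vector can be scaled into a valuation ring with one coordinate equal to `1`. -/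
theorem h3t_scale {L : Type*} [Field L] (V : ValuationSubring L) {n : ℕ} (c : Fin n → L)
    (hc : c ≠ 0) : ∃ (u : L) (k₀ : Fin n), u ≠ 0 ∧ (∀ k, u * c k ∈ V) ∧ u * c k₀ = 1 := by
  classical
  have hne : ∃ k, c k ≠ 0 := by
    by_contra h
    apply hc
    funext k
    by_contra hk
    exact h ⟨k, hk⟩
  obtain ⟨k₁, hk₁⟩ := hne
  have : Nonempty (Fin n) := ⟨k₁⟩
  obtain ⟨k₀, -, hmax⟩ := Finset.exists_max_image Finset.univ (fun k => V.valuation (c k))
    Finset.univ_nonempty
  have hk₀ : c k₀ ≠ 0 := by
    intro h0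
    have := hmax k₁ (Finset.mem_univ _)
    rw [h0, map_zero, le_zero_iff, map_eq_zero] at this
    exact hk₁ this
  refine ⟨(c k₀)⁻¹, k₀, inv_ne_zero hk₀, fun k => ?_, inv_mul_cancel₀ hk₀⟩
  rw [← ValuationSubring.valuation_le_one_iff, map_mul, map_inv₀]
  have h1 := hmax k (Finset.mem_univ _)
  have h2 : V.valuation (c k₀) ≠ 0 := by
    rw [ne_eq, map_eq_zero]
    exact hk₀
  calc (V.valuation (c k₀))⁻¹ * V.valuation (c k)
      ≤ (V.valuation (c k₀))⁻¹ * V.valuation (c k₀) := by gcongr
    _ = 1 := inv_mul_cancel₀ h2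

end Scale

section Reduction

/-- **Reduction of an eigen-system.** Let `φ : R → L` be a ring homomorphism to a field, `m` a
maximal ideal of `R` and `V` a valuation ring of `L` containing `φ R` whose maximal ideal
contains `φ m`. If the matrices `t j` with entries in `R` have a non-zero joint eigenvector over
`L` with eigenvalues `a j ∈ R`, then their reductions have a non-zero joint eigenvector over
`R ⧸ m` with the reduced eigenvalues. -/
theorem h3t_eigen_red_of_val {R L : Type*} [CommRing R] [Field L] (φ : R →+* L) (m : Ideal R)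
    [hm : m.IsMaximal] (V : ValuationSubring L) (hV : ∀ x, φ x ∈ V)
    (hmV : ∀ x ∈ m, φ x ∈ V.nonunits) {n : ℕ} {J : Type*}
    (t : J → Matrix (Fin n) (Fin n) R) (a : J → R) (c : Fin n → L) (hc : c ≠ 0)
    (h : ∀ j k, ∑ i, φ (t j k i) * c i = φ (a j) * c k) :
    ∃ w : Fin n → R ⧸ m, w ≠ 0 ∧
      ∀ j k, ∑ i, Ideal.Quotient.mk m (t j k i) * w i = Ideal.Quotient.mk m (a j) * w k := by
  classical
  letI : Field (R ⧸ m) := Ideal.Quotient.field m
  obtain ⟨u, k₀, hu, hmem, hone⟩ := h3t_scale V c hc
  let φ' : R →+* V := φ.codRestrict V.toSubring hV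
  let ψ : R →+* IsLocalRing.ResidueField V := (IsLocalRing.residue V).comp φ'
  have hψm : ∀ x ∈ m, ψ x = 0 := by
    intro x hx
    show IsLocalRing.residue V (φ' x) = 0
    rw [IsLocalRing.residue_eq_zero_iff, IsLocalRing.mem_maximalIdeal, mem_nonunits_iff]
    intro hunit
    have h1 : φ x ∈ V.nonunits := hmV x hx
    rw [ValuationSubring.mem_nonunits_iff_exists_mem_maximalIdeal] at h1
    obtain ⟨hx', hx''⟩ := h1
    rw [IsLocalRing.mem_maximalIdeal, mem_nonunits_iff] at hx''
    exact hx'' hunit
  let ψbar : R ⧸ m →+* IsLocalRing.ResidueField V := Ideal.Quotient.lift m ψ hψm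
  have hψbar : ∀ x, ψbar (Ideal.Quotient.mk m x) = ψ x := fun x => Ideal.Quotient.lift_mk m ψ hψm
  let c' : Fin n → V := fun k => ⟨u * c k, hmem k⟩
  let w₀ : Fin n → IsLocalRing.ResidueField V := fun k => IsLocalRing.residue V (c' k)
  have hw₀ : w₀ ≠ 0 := by
    intro h0
    have h1 : w₀ k₀ = 0 := by rw [h0]; rfl
    have h2 : c' k₀ = 1 := Subtype.ext hone
    have h3 : w₀ k₀ = 1 := by
      show IsLocalRing.residue V (c' k₀) = 1
      rw [h2, map_one]
    rw [h3] at h1
    exact one_ne_zero h1
  have hV' : ∀ j k, ∑ i, φ' (t j k i) * c' i = φ' (a j) * c' k := by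
    intro j k
    apply Subtype.ext
    simp only [AddSubmonoidClass.coe_finsetSum, MulMemClass.coe_mul]
    show ∑ i, φ (t j k i) * (u * c i) = φ (a j) * (u * c k)
    have := congrArg (fun z => u * z) (h j k)
    simp only [Finset.mul_sum] at this
    calc ∑ i, φ (t j k i) * (u * c i) = ∑ i, u * (φ (t j k i) * c i) :=
          Finset.sum_congr rfl fun i _ => by ring
      _ = u * (φ (a j) * c k) := this
      _ = φ (a j) * (u * c k) := by ring
  have hres : ∀ j k, ∑ i, ψ (t j k i) * w₀ i = ψ (a j) * w₀ k := by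
    intro j k
    have := congrArg (IsLocalRing.residue V) (hV' j k)
    simp only [map_sum, map_mul] at this
    exact this
  obtain ⟨w', hw'0, hw'⟩ := h3t_descent ψbar
    (fun jk : J × Fin n => fun i =>
      Ideal.Quotient.mk m (t jk.1 jk.2 i) - if i = jk.2 then Ideal.Quotient.mk m (a jk.1) else 0)
    w₀ hw₀ (by
      rintro ⟨j, k⟩
      simp only [map_sub, hψbar, sub_mul, Finset.sum_sub_distrib, hres j k, apply_ite ψbar,
        map_zero, ite_mul, zero_mul, Finset.sum_ite_eq', Finset.mem_univ, if_true, sub_self])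
  refine ⟨w', hw'0, fun j k => ?_⟩
  have := hw' (j, k)
  simp only [sub_mul, Finset.sum_sub_distrib, ite_mul, zero_mul, Finset.sum_ite_eq',
    Finset.mem_univ, if_true, sub_eq_zero] at this
  exact this

/-- The same with the valuation ring provided by Chevalley's theorem: `R` a subring of the
field `L`. -/
theorem h3t_eigen_red {L : Type*} [Field L] (R : Subring L) (m : Ideal R) [hm : m.IsMaximal]
    {n : ℕ} {J : Type*} (t : J → Matrix (Fin n) (Fin n) R) (a : J → R) (c : Fin n → L)
    (hc : c ≠ 0) (h : ∀ j k, ∑ i, (t j k i : L) * c i = (a j : L) * c k) :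
    ∃ w : Fin n → R ⧸ m, w ≠ 0 ∧
      ∀ j k, ∑ i, Ideal.Quotient.mk m (t j k i) * w i = Ideal.Quotient.mk m (a j) * w k := by
  obtain ⟨V, hRV, hmV⟩ := Ideal.image_subset_nonunits_valuationSubring m hm.ne_top
  exact h3t_eigen_red_of_val R.subtype m V (fun x => hRV x.2)
    (fun x hx => hmV ⟨x, hx, rfl⟩) t a c hc h

/-- The same for a `ℤ`-subalgebra `R` of the field `L` (e.g. `integralClosure ℤ ℂ`). -/
theorem h3t_eigen_red_subalgebra {L : Type*} [Field L] (R : Subalgebra ℤ L) (m : Ideal R)
    [hm : m.IsMaximal] {n : ℕ} {J : Type*} (t : J → Matrix (Fin n) (Fin n) R) (a : J → R)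
    (c : Fin n → L) (hc : c ≠ 0) (h : ∀ j k, ∑ i, (t j k i : L) * c i = (a j : L) * c k) :
    ∃ w : Fin n → R ⧸ m, w ≠ 0 ∧
      ∀ j k, ∑ i, Ideal.Quotient.mk m (t j k i) * w i = Ideal.Quotient.mk m (a j) * w k := by
  let g : R.toSubring →+* R :=
    { toFun := fun x => ⟨x.1, x.2⟩
      map_one' := rfl
      map_mul' := fun _ _ => rfl
      map_zero' := rfl
      map_add' := fun _ _ => rfl }
  have hI : Ideal.comap g m ≠ ⊤ := by
    intro htop
    apply hm.ne_top
    rw [Ideal.eq_top_iff_one]
    have h1 : (1 : R.toSubring) ∈ Ideal.comap g m := by rw [htop]; trivial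
    exact h1
  obtain ⟨V, hRV, hmV⟩ := Ideal.image_subset_nonunits_valuationSubring (Ideal.comap g m) hI
  exact h3t_eigen_red_of_val R.val.toRingHom m V (fun x => hRV x.2)
    (fun x hx => hmV ⟨⟨x.1, x.2⟩, hx, rfl⟩) t a c hc h

end Reduction

section Integral

/-- An eigenvalue of an integer matrix is integral over `ℤ`. -/
theorem h3t_isIntegral_of_eigen {L : Type*} [Field L] {n : ℕ} (t : Matrix (Fin n) (Fin n) ℤ)
    (a : L) (c : Fin n → L) (hc : c ≠ 0) (h : ∀ k, ∑ i, ((t k i : ℤ) : L) * c i = a * c k) :
    IsIntegral ℤ a := by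
  have hker : (Matrix.scalar (Fin n) a - t.map (Int.castRingHom L)).mulVec c = 0 := by
    funext k
    rw [Matrix.sub_mulVec]
    simp only [Pi.sub_apply, Pi.zero_apply, Matrix.mulVec, dotProduct, Matrix.map_apply,
      eq_intCast, h k]
    simp [Matrix.scalar_apply, Matrix.diagonal_apply]
  have hdet : (Matrix.scalar (Fin n) a - t.map (Int.castRingHom L)).det = 0 :=
    Matrix.exists_mulVec_eq_zero_iff.mp ⟨c, hc, hker⟩
  refine ⟨t.charpoly, Matrix.charpoly_monic t, ?_⟩
  rw [← Polynomial.eval_map, algebraMap_int_eq, ← Matrix.charpoly_map, Matrix.eval_charpoly]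
  exact hdet

end Integral

end Fermat.Agent.S42x.Top.H3
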