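import Fermat.Agent.S42x.Top.H3_LinAlg
import Fermat.Agent.S42x.Top.H3_Eigen
import Fermat.Agent.S21
import Fermat.Agent.S16x.Low.Defs
import Fermat.Agent.S16x.Low.H5_PerHecke
import Fermat.Agent.S16x.Low.H23_LiftDefs
import Fermat.Agent.S22.GammaFG
import Fermat.Prelude.Def_FLTPrelim_ModularRep

/-!
# W7 (S42 / S29), package [TOP] (helper3): the eigen-system of a normalised eigenform occurs in
`Hom_par(Γ₀(N), ℤ) ⊗ κ`

`Λ := Hom_par(Γ₀(N), ℤ)` (homomorphisms killing the elements of trace `± 2`), a finite free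
`ℤ`-module.  No Hecke operator on cohomology is defined; the action of `T_ℓ` is *relational*:
`(T_ℓ ψ)(γ) = ∑ᵢ ψ(γ'ᵢ)` for any coset datum `αᵢ γ = γ'ᵢ α_{σ i}` (`S16x.Low.CosetData`).

* `h3t_hecke_int` : `T_ℓ` preserves `Λ`;
* `h3t_indep_complex` : a `ℤ`-basis of `Λ` is linearly independent over `ℂ`;
* `top_eigen` : for a normalised eigenform `g` and a maximal ideal `m` of `ℤ̄`, there are a
  `ℤ`-basis `b` of `Λ`, integer matrices `t ℓ` of `T_ℓ` in this basis, integral `a ℓ` with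
  `a ℓ = a_ℓ(g)`, and `w ≠ 0` in `κⁿ`, `κ = ℤ̄ ⧸ m`, with `t̄_ℓ w = ā_ℓ w` for all primes `ℓ ∤ N`.
-/

set_option autoImplicit false
set_option linter.style.haveILetI false
set_option maxHeartbeats 1000000

open CongruenceSubgroup ModularCurve ModularCurve.Period ModularFormClass
open Fermat.Agent.S16x.Low Fermat.Agent.S16x.Low.H23
open scoped MatrixGroups

noncomputable section

namespace Fermat.Agent.S42x.Top.H3

section Generic

/-- A complex homomorphism with integral values is the cast of an integral homomorphism. -/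
theorem h3t_int_hom {G : Type*} [AddGroup G] (Ψ : G →+ ℂ) (h : ∀ γ, ∃ z : ℤ, Ψ γ = z) :
    ∃ ψ : G →+ ℤ, ∀ γ, Ψ γ = (ψ γ : ℂ) := by
  choose f hf using h
  refine ⟨AddMonoidHom.mk' f (fun a b => ?_), hf⟩
  have h1 : ((f (a + b) : ℤ) : ℂ) = ((f a + f b : ℤ) : ℂ) := by
    rw [← hf, map_add, hf a, hf b]
    push_cast
    rfl
  exact_mod_cast h1

variable {Γ : Type*} [Group Γ]

/-- A `ℤ`-basis of `Hom_C(Γ, ℤ)` is linearly independent over `ℚ`. -/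
theorem h3t_indep_rat {C : Set Γ} {n : ℕ} (b : Module.Basis (Fin n) ℤ ↥(homsKilling ℤ C ℤ))
    (q : Fin n → ℚ) (h : ∀ γ, ∑ j, q j * (((b j : Additive Γ →+ ℤ) γ : ℤ) : ℚ) = 0) : q = 0 := by
  obtain ⟨D, hD⟩ := IsLocalization.exist_integer_multiples_of_finite (nonZeroDivisors ℤ) q
  choose z hz using hD
  have hD0 : ((D : ℤ) : ℚ) ≠ 0 := by
    have := nonZeroDivisors.coe_ne_zero D
    exact_mod_cast this
  have hzq : ∀ j, ((z j : ℤ) : ℚ) = (D : ℤ) * q j := by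
    intro j
    have := hz j
    rw [eq_intCast] at this
    rw [this, zsmul_eq_mul]
  have hsum : ∑ j, z j • b j = 0 := by
    apply Subtype.ext
    refine AddMonoidHom.ext fun γ => ?_
    simp only [Submodule.coe_sum, Submodule.coe_smul, AddMonoidHom.finsetSum_apply,
      AddMonoidHom.smul_apply, smul_eq_mul, Submodule.coe_zero, AddMonoidHom.zero_apply]
    have h1 : ((∑ j, z j * (b j : Additive Γ →+ ℤ) γ : ℤ) : ℚ) = 0 := by
      push_cast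
      calc ∑ j, ((z j : ℤ) : ℚ) * (((b j : Additive Γ →+ ℤ) γ : ℤ) : ℚ)
          = ∑ j, ((D : ℤ) : ℚ) * (q j * (((b j : Additive Γ →+ ℤ) γ : ℤ) : ℚ)) :=
            Finset.sum_congr rfl fun j _ => by rw [hzq]; ring
        _ = 0 := by rw [← Finset.mul_sum, h γ, mul_zero]
    exact_mod_cast h1
  have hz0 := (Fintype.linearIndependent_iff.mp b.linearIndependent) z hsum
  funext j
  have h2 := hzq j
  rw [hz0 j, Int.cast_zero] at h2
  rcases mul_eq_zero.mp h2.symm with h3 | h3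
  · exact absurd h3 hD0
  · exact h3

/-- A `ℤ`-basis of `Hom_C(Γ, ℤ)` is linearly independent over `ℂ`. -/
theorem h3t_indep_complex {C : Set Γ} {n : ℕ} (b : Module.Basis (Fin n) ℤ ↥(homsKilling ℤ C ℤ))
    (c : Fin n → ℂ) (h : ∀ γ, ∑ j, c j * (((b j : Additive Γ →+ ℤ) γ : ℤ) : ℂ) = 0) : c = 0 := by
  refine h3t_linearIndependent_ext (algebraMap ℚ ℂ)
    (fun j (γ : Additive Γ) => (((b j : Additive Γ →+ ℤ) γ : ℤ) : ℚ))
    (fun q hq => h3t_indep_rat b q hq) c (fun γ => ?_)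
  simpa using h γ

/-- Every complex homomorphism killing `C` is a `ℂ`-combination of a `ℤ`-basis of the integral
ones. -/
theorem h3t_span_complex [Group.FG Γ] {C : Set Γ} {n : ℕ}
    (b : Module.Basis (Fin n) ℤ ↥(homsKilling ℤ C ℤ)) (Φ : Additive Γ →+ ℂ)
    (hΦ : Φ ∈ homsKilling ℂ C ℂ) :
    ∃ c : Fin n → ℂ, ∀ γ, Φ γ = ∑ j, c j * (((b j : Additive Γ →+ ℤ) γ : ℤ) : ℂ) := by
  have h1 := homsKilling_le_span C hΦ
  have h2 : Submodule.span ℂ ((castHomL ℂ) '' (homsKilling ℤ C ℤ : Set (Additive Γ →+ ℤ))) ≤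
      Submodule.span ℂ (Set.range fun j => castHomL ℂ (b j : Additive Γ →+ ℤ)) := by
    refine Submodule.span_le.mpr ?_
    rintro _ ⟨ψ, hψ, rfl⟩
    have h3 := b.sum_repr ⟨ψ, hψ⟩
    have h4 : ψ = ∑ j, b.repr ⟨ψ, hψ⟩ j • (b j : Additive Γ →+ ℤ) := by
      have := congrArg Subtype.val h3
      simp only [Submodule.coe_sum, Submodule.coe_smul] at this
      exact this.symm
    rw [h4, map_sum]
    refine Submodule.sum_mem _ fun j _ => ?_
    rw [map_zsmul]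
    have h5 : (b.repr ⟨ψ, hψ⟩ j) • castHomL ℂ (b j : Additive Γ →+ ℤ) =
        ((b.repr ⟨ψ, hψ⟩ j : ℤ) : ℂ) • castHomL ℂ (b j : Additive Γ →+ ℤ) := by
      refine AddMonoidHom.ext fun γ => ?_
      simp
    rw [h5]
    exact Submodule.smul_mem _ _ (Submodule.subset_span ⟨j, rfl⟩)
  obtain ⟨c, hc⟩ := (Submodule.mem_span_range_iff_exists_fun ℂ).mp (h2 h1)
  refine ⟨c, fun γ => ?_⟩
  rw [← hc]
  simp [castHomL_apply]

end Generic

section Level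

variable (N : ℕ) [NeZero N]

/-- The cast of a parabolic integral homomorphism is a period of a pair of cusp forms. -/
theorem h3t_exists_pair (ψ : Additive (Gamma0 N) →+ ℤ)
    (hψ : ψ ∈ homsKilling ℤ (parSet N) ℤ) :
    ∃ fg : CuspForm (Gamma0 N) 2 × CuspForm (Gamma0 N) 2,
      periodHomPair N fg = castHomL ℂ ψ := by
  have h1 : castHomL ℂ ψ ∈ homsKilling ℂ (parSet N) ℂ :=
    castHomL_mem (C := parSet N) (C' := parSet N) (fun γ hγ => Or.inl hγ) ℂ hψ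
  rw [← parabolicHoms_eq_homsKilling, ← (Fermat.Agent.S21.result N).2] at h1
  exact h1

/-- **`T_ℓ` preserves `Hom_par(Γ₀(N), ℤ)`**, in relational form: for a parabolic integral
homomorphism `ψ` there is a parabolic integral homomorphism `ψ'` with
`ψ'(γ) = ∑ᵢ ψ(γ'ᵢ)` for every coset datum of every `γ`. -/
theorem h3t_hecke_int {ℓ : ℕ} [hℓ' : Fact ℓ.Prime] (hℓN : ¬ ℓ ∣ N) (ψ : Additive (Gamma0 N) →+ ℤ)
    (hψ : ψ ∈ homsKilling ℤ (parSet N) ℤ) :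
    ∃ ψ' : Additive (Gamma0 N) →+ ℤ, ψ' ∈ homsKilling ℤ (parSet N) ℤ ∧
      ∀ (γ : Gamma0 N) (σ : Equiv.Perm (OnePoint (ZMod ℓ))) (γ' : OnePoint (ZMod ℓ) → SL(2, ℤ))
        (h : CosetData (Fermat.Agent.S22.tA ℓ) (Fermat.Agent.S22.tB ℓ) (Fermat.Agent.S22.tD ℓ) N
          (γ : SL(2, ℤ)) σ γ'),
        ∑ x, ψ (Additive.ofMul (h.elt x)) = ψ' (Additive.ofMul γ) := by
  have hℓ : ℓ.Prime := hℓ'.out
  obtain ⟨⟨f, g⟩, hfg⟩ := h3t_exists_pair N ψ hψ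
  set Ψ : Additive (Gamma0 N) →+ ℂ :=
    periodHomPair N (CuspForm.heckeTLin 2 hℓ hℓN f, CuspForm.heckeTLin 2 hℓ hℓN g) with hΨdef
  have hrel : ∀ (γ : Gamma0 N) (σ : Equiv.Perm (OnePoint (ZMod ℓ)))
      (γ' : OnePoint (ZMod ℓ) → SL(2, ℤ))
      (h : CosetData (Fermat.Agent.S22.tA ℓ) (Fermat.Agent.S22.tB ℓ) (Fermat.Agent.S22.tD ℓ) N
        (γ : SL(2, ℤ)) σ γ'),
      Ψ (Additive.ofMul γ) = ((∑ x, ψ (Additive.ofMul (h.elt x)) : ℤ) : ℂ) := by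
    intro γ σ γ' h
    have h1 := Fermat.Agent.S16x.Low.H5.periodHomPair_heckeT hℓN f g γ σ γ' ⟨h.1, h.2⟩
    rw [hΨdef, h1, hfg]
    push_cast
    rfl
  have hint : ∀ γ : Additive (Gamma0 N), ∃ z : ℤ, Ψ γ = z := by
    intro γ
    obtain ⟨σ, γ', h⟩ := exists_cosetData_T hℓN (Additive.toMul γ)
    exact ⟨_, hrel (Additive.toMul γ) σ γ' h⟩
  obtain ⟨ψ', hψ'⟩ := h3t_int_hom Ψ hint
  have hΨpar : Ψ ∈ homsKilling ℂ (parSet N) ℂ := by
    rw [← parabolicHoms_eq_homsKilling, ← (Fermat.Agent.S21.result N).2]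
    exact ⟨_, rfl⟩
  refine ⟨ψ', fun γ hγ => ?_, fun γ σ γ' h => ?_⟩
  · have h1 := hΨpar γ hγ
    rw [hψ'] at h1
    exact_mod_cast h1
  · have h1 := hrel γ σ γ' h
    rw [hψ'] at h1
    exact_mod_cast h1.symm

/-- The matrices of the `T_ℓ` in a `ℤ`-basis of `Hom_par(Γ₀(N), ℤ)`. -/
theorem h3t_exists_matrix {n : ℕ}
    (b : Module.Basis (Fin n) ℤ ↥(homsKilling ℤ (parSet N) ℤ)) :
    ∃ t : ℕ → Matrix (Fin n) (Fin n) ℤ, ∀ (ℓ : ℕ) [Fact ℓ.Prime], ¬ ℓ ∣ N →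
      ∀ (γ : Gamma0 N) (σ : Equiv.Perm (OnePoint (ZMod ℓ))) (γ' : OnePoint (ZMod ℓ) → SL(2, ℤ))
        (h : CosetData (Fermat.Agent.S22.tA ℓ) (Fermat.Agent.S22.tB ℓ) (Fermat.Agent.S22.tD ℓ) N
          (γ : SL(2, ℤ)) σ γ') (j : Fin n),
        ∑ x, (b j : Additive (Gamma0 N) →+ ℤ) (Additive.ofMul (h.elt x)) =
          ∑ k, t ℓ k j * (b k : Additive (Gamma0 N) →+ ℤ) (Additive.ofMul γ) := by
  classical
  have H : ∀ ℓ : ℕ, ∃ M : Matrix (Fin n) (Fin n) ℤ, ∀ [Fact ℓ.Prime], ¬ ℓ ∣ N →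
      ∀ (γ : Gamma0 N) (σ : Equiv.Perm (OnePoint (ZMod ℓ))) (γ' : OnePoint (ZMod ℓ) → SL(2, ℤ))
        (h : CosetData (Fermat.Agent.S22.tA ℓ) (Fermat.Agent.S22.tB ℓ) (Fermat.Agent.S22.tD ℓ) N
          (γ : SL(2, ℤ)) σ γ') (j : Fin n),
        ∑ x, (b j : Additive (Gamma0 N) →+ ℤ) (Additive.ofMul (h.elt x)) =
          ∑ k, M k j * (b k : Additive (Gamma0 N) →+ ℤ) (Additive.ofMul γ) := by
    intro ℓ
    by_cases hp : ℓ.Prime
    · by_cases hN : ℓ ∣ N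
      · exact ⟨0, fun hN' => absurd hN hN'⟩
      · haveI : Fact ℓ.Prime := ⟨hp⟩
        choose ψ' hψ'mem hψ'rel using
          fun j => h3t_hecke_int N hN (b j : Additive (Gamma0 N) →+ ℤ) (b j).2
        refine ⟨fun k j => b.repr ⟨ψ' j, hψ'mem j⟩ k, fun _ γ σ γ' h j => ?_⟩
        rw [hψ'rel j γ σ γ' h]
        have h3 := b.sum_repr ⟨ψ' j, hψ'mem j⟩
        have h4 := congrArg (fun φ : ↥(homsKilling ℤ (parSet N) ℤ) =>
          (φ : Additive (Gamma0 N) →+ ℤ) (Additive.ofMul γ)) h3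
        simp only [Submodule.coe_sum, Submodule.coe_smul, AddMonoidHom.finsetSum_apply,
          AddMonoidHom.smul_apply, smul_eq_mul] at h4
        exact h4.symm
    · exact ⟨0, fun {hp'} => absurd hp'.out hp⟩
  choose t ht using H
  exact ⟨t, fun ℓ _ => ht ℓ⟩

/-- The period of `(g, 0)`. -/
theorem h3t_period_ne_zero (g : CuspForm (Gamma0 N) 2) (hg : g ≠ 0) :
    periodHomPair N (g, 0) ≠ 0 := by
  intro h0
  have h1 : periodHomPair N (g, 0) = periodHomPair N 0 := by rw [h0, map_zero]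
  have h2 := (Fermat.Agent.S21.result N).1 h1
  exact hg (congrArg Prod.fst h2)

/-- The period of `(g, 0)` of an eigenform `g` is an eigenvector of `T_ℓ`, relationally. -/
theorem h3t_period_eigen (g : CuspForm (Gamma0 N) 2) (hg : g.IsNormalizedEigenform)
    {ℓ : ℕ} [hℓ : Fact ℓ.Prime] (hℓN : ¬ ℓ ∣ N) (γ : Gamma0 N)
    (σ : Equiv.Perm (OnePoint (ZMod ℓ))) (γ' : OnePoint (ZMod ℓ) → SL(2, ℤ))
    (h : CosetData (Fermat.Agent.S22.tA ℓ) (Fermat.Agent.S22.tB ℓ) (Fermat.Agent.S22.tD ℓ) N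
      (γ : SL(2, ℤ)) σ γ') :
    ∑ x, periodHomPair N (g, 0) (Additive.ofMul (h.elt x)) =
      qCoeff g ℓ * periodHomPair N (g, 0) (Additive.ofMul γ) := by
  have h1 := Fermat.Agent.S16x.Low.H5.periodHomPair_heckeT hℓN g 0 γ σ γ' ⟨h.1, h.2⟩
  have h2 : (CuspForm.heckeTLin 2 (Fact.out : ℓ.Prime) hℓN g,
      CuspForm.heckeTLin 2 (Fact.out : ℓ.Prime) hℓN (0 : CuspForm (Gamma0 N) 2)) =
      qCoeff g ℓ • ((g, 0) : CuspForm (Gamma0 N) 2 × CuspForm (Gamma0 N) 2) := by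
    rw [h3t_heckeT_eigen g hg Fact.out hℓN, map_zero, Prod.smul_mk, smul_zero]
  rw [h2, map_smul] at h1
  rw [← smul_eq_mul]
  exact h1.symm

/-- The eigen-equation over `ℂ` for the coordinates of the period of an eigenform. -/
theorem h3t_eigen_complex (g : CuspForm (Gamma0 N) 2) (hg : g.IsNormalizedEigenform) {n : ℕ}
    (b : Module.Basis (Fin n) ℤ ↥(homsKilling ℤ (parSet N) ℤ))
    (t : ℕ → Matrix (Fin n) (Fin n) ℤ)
    (ht : ∀ (ℓ : ℕ) [Fact ℓ.Prime], ¬ ℓ ∣ N →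
      ∀ (γ : Gamma0 N) (σ : Equiv.Perm (OnePoint (ZMod ℓ))) (γ' : OnePoint (ZMod ℓ) → SL(2, ℤ))
        (h : CosetData (Fermat.Agent.S22.tA ℓ) (Fermat.Agent.S22.tB ℓ) (Fermat.Agent.S22.tD ℓ) N
          (γ : SL(2, ℤ)) σ γ') (j : Fin n),
        ∑ x, (b j : Additive (Gamma0 N) →+ ℤ) (Additive.ofMul (h.elt x)) =
          ∑ k, t ℓ k j * (b k : Additive (Gamma0 N) →+ ℤ) (Additive.ofMul γ))
    (c : Fin n → ℂ)
    (hc : ∀ γ, periodHomPair N (g, 0) γ =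
      ∑ j, c j * (((b j : Additive (Gamma0 N) →+ ℤ) γ : ℤ) : ℂ))
    (ℓ : ℕ) [Fact ℓ.Prime] (hℓN : ¬ ℓ ∣ N) (k : Fin n) :
    ∑ j, ((t ℓ k j : ℤ) : ℂ) * c j = qCoeff g ℓ * c k := by
  have key : (fun k => ∑ j, ((t ℓ k j : ℤ) : ℂ) * c j - qCoeff g ℓ * c k) = 0 := by
    refine h3t_indep_complex b _ (fun γ => ?_)
    obtain ⟨σ, γ', h⟩ := exists_cosetData_T hℓN (Additive.toMul γ)
    have h1 := h3t_period_eigen N g hg hℓN (Additive.toMul γ) σ γ' h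
    have h2 : ∑ x, periodHomPair N (g, 0) (Additive.ofMul (h.elt x)) =
        ∑ k, (∑ j, ((t ℓ k j : ℤ) : ℂ) * c j) *
          (((b k : Additive (Gamma0 N) →+ ℤ) γ : ℤ) : ℂ) := by
      calc ∑ x, periodHomPair N (g, 0) (Additive.ofMul (h.elt x))
          = ∑ x, ∑ j, c j *
              (((b j : Additive (Gamma0 N) →+ ℤ) (Additive.ofMul (h.elt x)) : ℤ) : ℂ) :=
            Finset.sum_congr rfl fun x _ => hc _
        _ = ∑ j, c j * ((∑ x,
              (b j : Additive (Gamma0 N) →+ ℤ) (Additive.ofMul (h.elt x)) : ℤ) : ℂ) := by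
            rw [Finset.sum_comm]
            refine Finset.sum_congr rfl fun j _ => ?_
            rw [Int.cast_sum, Finset.mul_sum]
        _ = ∑ j, c j * ((∑ k, t ℓ k j *
              (b k : Additive (Gamma0 N) →+ ℤ) (Additive.ofMul (Additive.toMul γ)) : ℤ) : ℂ) := by
            refine Finset.sum_congr rfl fun j _ => ?_
            rw [ht ℓ hℓN (Additive.toMul γ) σ γ' h j]
        _ = ∑ k, (∑ j, ((t ℓ k j : ℤ) : ℂ) * c j) *
              (((b k : Additive (Gamma0 N) →+ ℤ) γ : ℤ) : ℂ) := by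
            simp only [Int.cast_sum, Int.cast_mul, Finset.mul_sum, Finset.sum_mul]
            rw [Finset.sum_comm]
            refine Finset.sum_congr rfl fun k _ => Finset.sum_congr rfl fun j _ => ?_
            rw [show Additive.ofMul (Additive.toMul γ) = γ from rfl]
            ring
    have h3 : qCoeff g ℓ * periodHomPair N (g, 0) (Additive.ofMul (Additive.toMul γ)) =
        ∑ k, (qCoeff g ℓ * c k) * (((b k : Additive (Gamma0 N) →+ ℤ) γ : ℤ) : ℂ) := by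
      rw [show Additive.ofMul (Additive.toMul γ) = γ from rfl, hc γ, Finset.mul_sum]
      refine Finset.sum_congr rfl fun k _ => ?_
      ring
    rw [h2, h3] at h1
    simp only [sub_mul, Finset.sum_sub_distrib]
    rw [h1, sub_self]
  have := congrFun key k
  simp only [Pi.zero_apply, sub_eq_zero] at this
  exact this

/-- **[TOP]** the eigen-system of a normalised eigenform `g` on `Γ₀(N)` occurs in
`Hom_par(Γ₀(N), ℤ) ⊗ κ`, `κ = ℤ̄ ⧸ m`: there are a `ℤ`-basis `b` of `Hom_par(Γ₀(N), ℤ)`, the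
integer matrices `t ℓ` of the `T_ℓ` in this basis (in relational form, for every coset datum),
integral elements `a ℓ` with `a ℓ = a_ℓ(g)`, and a non-zero vector `w ∈ κⁿ` with
`t̄_ℓ w = ā_ℓ w` for every prime `ℓ ∤ N`. -/
theorem top_eigen (g : CuspForm (Gamma0 N) 2) (hg : g.IsNormalizedEigenform)
    (m : Ideal (integralClosure ℤ ℂ)) [hm : m.IsMaximal] :
    ∃ (n : ℕ) (b : Module.Basis (Fin n) ℤ ↥(homsKilling ℤ (parSet N) ℤ))
      (t : ℕ → Matrix (Fin n) (Fin n) ℤ) (a : ℕ → integralClosure ℤ ℂ)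
      (w : Fin n → (integralClosure ℤ ℂ ⧸ m)),
      (∀ (ℓ : ℕ) [Fact ℓ.Prime], ¬ ℓ ∣ N →
        ∀ (γ : Gamma0 N) (σ : Equiv.Perm (OnePoint (ZMod ℓ)))
          (γ' : OnePoint (ZMod ℓ) → SL(2, ℤ))
          (h : CosetData (Fermat.Agent.S22.tA ℓ) (Fermat.Agent.S22.tB ℓ)
            (Fermat.Agent.S22.tD ℓ) N (γ : SL(2, ℤ)) σ γ') (j : Fin n),
          ∑ x, (b j : Additive (Gamma0 N) →+ ℤ) (Additive.ofMul (h.elt x)) =
            ∑ k, t ℓ k j * (b k : Additive (Gamma0 N) →+ ℤ) (Additive.ofMul γ)) ∧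
      (∀ ℓ : ℕ, ℓ.Prime → ¬ ℓ ∣ N → ((a ℓ : integralClosure ℤ ℂ) : ℂ) = qCoeff g ℓ) ∧
      w ≠ 0 ∧
      ∀ ℓ : ℕ, ℓ.Prime → ¬ ℓ ∣ N → ∀ k : Fin n,
        ∑ j, ((t ℓ k j : ℤ) : integralClosure ℤ ℂ ⧸ m) * w j =
          Ideal.Quotient.mk m (a ℓ) * w k := by
  classical
  haveI : Group.FG (Gamma0 N) := Fermat.Agent.S22.groupFG_Gamma0 N
  haveI := homsKillingZ_moduleFinite (parSet N)
  haveI := homsKillingZ_moduleFree (parSet N)
  let b := Module.finBasis ℤ ↥(homsKilling ℤ (parSet N) ℤ)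
  obtain ⟨t, ht⟩ := h3t_exists_matrix N b
  -- the period of `(g, 0)` and its coordinates
  have hΦ0 := h3t_period_ne_zero N g hg.ne_zero
  have hΦpar : periodHomPair N (g, 0) ∈ homsKilling ℂ (parSet N) ℂ := by
    rw [← parabolicHoms_eq_homsKilling, ← (Fermat.Agent.S21.result N).2]
    exact ⟨_, rfl⟩
  obtain ⟨c, hc⟩ := h3t_span_complex b _ hΦpar
  have hc0 : c ≠ 0 := by
    rintro rfl
    apply hΦ0
    refine AddMonoidHom.ext fun γ => ?_
    rw [hc γ]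
    simp
  have heig := h3t_eigen_complex N g hg b t ht c hc
  -- integrality of the eigenvalues
  have hint : ∀ ℓ : ℕ, ℓ.Prime → ¬ ℓ ∣ N → IsIntegral ℤ (qCoeff g ℓ) := by
    intro ℓ hℓ hℓN
    haveI : Fact ℓ.Prime := ⟨hℓ⟩
    exact h3t_isIntegral_of_eigen (t ℓ) (qCoeff g ℓ) c hc0 (fun k => heig ℓ hℓN k)
  let a : ℕ → integralClosure ℤ ℂ := fun ℓ =>
    if h : ℓ.Prime ∧ ¬ ℓ ∣ N then ⟨qCoeff g ℓ, hint ℓ h.1 h.2⟩ else 0
  have ha : ∀ ℓ : ℕ, ℓ.Prime → ¬ ℓ ∣ N → ((a ℓ : integralClosure ℤ ℂ) : ℂ) = qCoeff g ℓ := by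
    intro ℓ hℓ hℓN
    simp only [a, dif_pos (And.intro hℓ hℓN)]
  -- reduction
  obtain ⟨w, hw0, hw⟩ := h3t_eigen_red_subalgebra (integralClosure ℤ ℂ) m
    (J := {ℓ : ℕ // ℓ.Prime ∧ ¬ ℓ ∣ N})
    (fun ℓ => (t ℓ.1).map (fun z : ℤ => ((z : ℤ) : integralClosure ℤ ℂ)))
    (fun ℓ => a ℓ.1) c hc0 (by
      rintro ⟨ℓ, hℓ, hℓN⟩ k
      haveI : Fact ℓ.Prime := ⟨hℓ⟩
      have := heig ℓ hℓN k
      simp only [Matrix.map_apply, ha ℓ hℓ hℓN]
      simpa using this)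
  refine ⟨_, b, t, a, w, ht, ha, hw0, fun ℓ hℓ hℓN k => ?_⟩
  have := hw ⟨ℓ, hℓ, hℓN⟩ k
  simpa only [Matrix.map_apply, map_intCast] using this

omit [NeZero N] in
/-- The reductions modulo a prime `p` of a `ℤ`-basis of `Hom_par(Γ₀(N), ℤ)` are linearly
independent over `𝔽_p` (the lattice is saturated). -/
theorem h3t_indep_mod {n : ℕ} (b : Module.Basis (Fin n) ℤ ↥(homsKilling ℤ (parSet N) ℤ))
    (p : ℕ) [Fact p.Prime] :
    LinearIndependent (ZMod p)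
      (fun j => (Int.castAddHom (ZMod p)).comp (b j : Additive (Gamma0 N) →+ ℤ)) := by
  have h1 := linearIndependent_red (parSet N) (parSet N) (fun γ hγ => Or.inl hγ) p b
  have h2 := h1.map' (homsKilling (ZMod p) (parSet N) (ZMod p)).subtype
    (Submodule.ker_subtype _)
  exact h2

/-- **[TOP]**, in the announced form: `b` a family of parabolic integral homomorphisms which is
a `ℤ`-basis of `Hom_par(Γ₀(N), ℤ)` (linearly independent over `ℤ`, spanning, and with linearly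
independent reductions modulo every prime `p`), `t ℓ` the matrices of the `T_ℓ` (coset formula,
for the coset data of `S16x.Low` and of `S16x.Low.H5`), `a ℓ` integral with `a ℓ = a_ℓ(g)`, and
`w ≠ 0` an eigenvector modulo `m`. -/
theorem top_eigen_fun (g : CuspForm (Gamma0 N) 2) (hg : g.IsNormalizedEigenform)
    (m : Ideal (integralClosure ℤ ℂ)) [hm : m.IsMaximal] :
    ∃ (n : ℕ) (b : Fin n → (Additive (Gamma0 N) →+ ℤ))
      (t : ℕ → Matrix (Fin n) (Fin n) ℤ) (a : ℕ → integralClosure ℤ ℂ)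
      (w : Fin n → (integralClosure ℤ ℂ ⧸ m)),
      (∀ j, IsParabolicHom (Gamma0 N) (b j)) ∧
      LinearIndependent ℤ b ∧
      (∀ ψ : Additive (Gamma0 N) →+ ℤ, IsParabolicHom (Gamma0 N) ψ →
        ∃ z : Fin n → ℤ, ψ = ∑ j, z j • b j) ∧
      (∀ (p : ℕ) [Fact p.Prime],
        LinearIndependent (ZMod p) (fun j => (Int.castAddHom (ZMod p)).comp (b j))) ∧
      (∀ (ℓ : ℕ) [Fact ℓ.Prime], ¬ ℓ ∣ N →
        ∀ (γ : Gamma0 N) (σ : Equiv.Perm (OnePoint (ZMod ℓ)))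
          (γ' : OnePoint (ZMod ℓ) → SL(2, ℤ))
          (h : CosetData (Fermat.Agent.S22.tA ℓ) (Fermat.Agent.S22.tB ℓ)
            (Fermat.Agent.S22.tD ℓ) N (γ : SL(2, ℤ)) σ γ') (j : Fin n),
          ∑ x, b j (Additive.ofMul (h.elt x)) = ∑ k, t ℓ k j * b k (Additive.ofMul γ)) ∧
      (∀ (ℓ : ℕ) [Fact ℓ.Prime], ¬ ℓ ∣ N →
        ∀ (γ : Gamma0 N) (σ : Equiv.Perm (OnePoint (ZMod ℓ)))
          (γ' : OnePoint (ZMod ℓ) → SL(2, ℤ))
          (h : Fermat.Agent.S16x.Low.H5.CosetData (Fermat.Agent.S22.tA ℓ)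
            (Fermat.Agent.S22.tB ℓ) (Fermat.Agent.S22.tD ℓ) N (γ : SL(2, ℤ)) σ γ') (j : Fin n),
          ∑ x, b j (Additive.ofMul (⟨γ' x, h.1 x⟩ : Gamma0 N)) =
            ∑ k, t ℓ k j * b k (Additive.ofMul γ)) ∧
      (∀ ℓ : ℕ, ℓ.Prime → ¬ ℓ ∣ N → ((a ℓ : integralClosure ℤ ℂ) : ℂ) = qCoeff g ℓ) ∧
      w ≠ 0 ∧
      ∀ ℓ : ℕ, ℓ.Prime → ¬ ℓ ∣ N → ∀ k : Fin n,
        ∑ j, ((t ℓ k j : ℤ) : integralClosure ℤ ℂ ⧸ m) * w j =
          Ideal.Quotient.mk m (a ℓ) * w k := by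
  obtain ⟨n, b, t, a, w, ht, ha, hw0, hw⟩ := top_eigen N g hg m
  refine ⟨n, fun j => (b j : Additive (Gamma0 N) →+ ℤ), t, a, w, fun j => (b j).2, ?_, ?_,
    fun p _ => h3t_indep_mod N b p, ht, fun ℓ _ hℓN γ σ γ' h j => ?_, ha, hw0, hw⟩
  · exact b.linearIndependent.map' (homsKilling ℤ (parSet N) ℤ).subtype
      (Submodule.ker_subtype _)
  · intro ψ hψ
    refine ⟨fun j => b.repr ⟨ψ, hψ⟩ j, ?_⟩
    have h3 := b.sum_repr ⟨ψ, hψ⟩
    have := congrArg Subtype.val h3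
    simp only [Submodule.coe_sum, Submodule.coe_smul] at this
    exact this.symm
  · exact ht ℓ hℓN γ σ γ' ⟨h.1, h.2⟩ j

end Level

end Fermat.Agent.S42x.Top.H3
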